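import Fermat.Agent.LT.Matching.TameCosets

/-!
# Twisted fixed cosets are fixed cosets over the base field

With `K` the fixed field of `σ`, the `σ`-fixed level cosets are the level cosets of `PGL₂(K)`.
Hence for every `δ` with norm `γ` (up to a scalar) the twisted fixed cosets of `δ` biject with
the cosets of `PGL₂(K)` fixed by `γ`, through a translation in the centraliser of `γ`.
-/

set_option autoImplicit false

namespace Fermat.Agent.LT.Matching

open Fermat.Agent.CubicDescent Matrix

variable {K L : Type*} [Field K] [Field L] {σ : L ≃+* L} {S : Subring L} {J : Ideal S} {n : ℕ}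

/-- Extension of scalars on `GL₂`. -/
noncomputable def baseUnit (ι : K →+* L) :
    (Matrix (Fin 2) (Fin 2) K)ˣ →* (Matrix (Fin 2) (Fin 2) L)ˣ :=
  Units.map (ι.mapMatrix : Matrix (Fin 2) (Fin 2) K →+* _).toMonoidHom

@[simp] theorem coe_baseUnit (ι : K →+* L) (g : (Matrix (Fin 2) (Fin 2) K)ˣ) :
    (baseUnit ι g : Matrix (Fin 2) (Fin 2) L) = (g : Matrix (Fin 2) (Fin 2) K).map ι := rfl

/-- Extension of scalars is injective on units. -/
theorem baseUnit_injective (ι : K →+* L) : Function.Injective (baseUnit ι) := fun _ _ h =>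
  Units.ext (Matrix.map_injective ι.injective (congrArg Units.val h))

/-- Matrices defined over `K` are `σ`-fixed. -/
theorem glMap_baseUnit {ι : K →+* L} (hι : ∀ x : L, σ x = x ↔ x ∈ Set.range ι)
    (g : (Matrix (Fin 2) (Fin 2) K)ˣ) : glMap σ (baseUnit ι g) = baseUnit ι g := by
  ext i j
  simpa using (hι _).mpr ⟨_, rfl⟩

/-- A `σ`-fixed matrix is defined over `K`. -/
theorem exists_baseUnit_eq {ι : K →+* L} (hι : ∀ x : L, σ x = x ↔ x ∈ Set.range ι)
    {g : (Matrix (Fin 2) (Fin 2) L)ˣ} (hg : glMap σ g = g) : ∃ g₀, baseUnit ι g₀ = g := by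
  have hm : ∀ (M : (Matrix (Fin 2) (Fin 2) L)ˣ), glMap σ M = M →
      ∃ N : Matrix (Fin 2) (Fin 2) K, N.map ι = (M : Matrix (Fin 2) (Fin 2) L) := fun M hM => by
    choose N hN using fun i j => (hι ((M : Matrix (Fin 2) (Fin 2) L) i j)).mp (by
      simpa using congrArg (fun M : (Matrix (Fin 2) (Fin 2) L)ˣ =>
        (M : Matrix (Fin 2) (Fin 2) L) i j) hM)
    exact ⟨Matrix.of N, by ext i j; exact hN i j⟩
  obtain ⟨N, hN⟩ := hm g hg
  obtain ⟨N', hN'⟩ := hm g⁻¹ (by rw [map_inv, hg])
  have hinj : Function.Injective (ι.mapMatrix : Matrix (Fin 2) (Fin 2) K → _) :=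
    Matrix.map_injective ι.injective
  refine ⟨⟨N, N', hinj ?_, hinj ?_⟩, Units.ext hN⟩
  · rw [map_mul, map_one, RingHom.mapMatrix_apply, RingHom.mapMatrix_apply, hN, hN', Units.mul_inv]
  · rw [map_mul, map_one, RingHom.mapMatrix_apply, RingHom.mapMatrix_apply, hN, hN', Units.inv_mul]

/-- The level cosets of `PGL₂(K)`. -/
abbrev BaseCosets (ι : K →+* L) (S : Subring L) (J : Ideal S) : Type _ :=
  (Matrix (Fin 2) (Fin 2) K)ˣ ⧸ (levelGroup S J).comap (baseUnit ι)

/-- Extension of scalars on level cosets. -/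
noncomputable def baseCosetMap (ι : K →+* L) (S : Subring L) (J : Ideal S) :
    BaseCosets ι S J → LevelCosets S J :=
  Quotient.map' (baseUnit ι) fun a b h => by
    rw [QuotientGroup.leftRel_apply] at h ⊢
    simpa using h

/-- Extension of scalars on the class of an element. -/
theorem baseCosetMap_mk (ι : K →+* L) (g : (Matrix (Fin 2) (Fin 2) K)ˣ) :
    baseCosetMap ι S J (g : BaseCosets ι S J) =
      ((baseUnit ι g : (Matrix (Fin 2) (Fin 2) L)ˣ) : LevelCosets S J) := rfl

/-- Extension of scalars is injective on level cosets. -/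
theorem baseCosetMap_injective (ι : K →+* L) : Function.Injective (baseCosetMap ι S J) := by
  intro x y h
  induction x using QuotientGroup.induction_on with
  | _ a =>
    induction y using QuotientGroup.induction_on with
    | _ b =>
      rw [baseCosetMap_mk, baseCosetMap_mk, QuotientGroup.eq] at h
      exact QuotientGroup.eq.mpr (by simpa using h)

/-- Extension of scalars is equivariant. -/
theorem baseCosetMap_smul (ι : K →+* L) (g : (Matrix (Fin 2) (Fin 2) K)ˣ)
    (x : BaseCosets ι S J) : baseCosetMap ι S J (g • x) = baseUnit ι g • baseCosetMap ι S J x := by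
  induction x using QuotientGroup.induction_on with
  | _ h =>
    rw [MulAction.Quotient.smul_mk, smul_eq_mul, baseCosetMap_mk, baseCosetMap_mk, map_mul,
      MulAction.Quotient.smul_mk, smul_eq_mul]

/-- **The local matching.** If the twisted fixed cosets of some `δ₀` of norm `γ` are the fixed
cosets of `γ` and fixed cosets are rational, then for every `δ` of norm `γ` (up to scalars) the
twisted fixed cosets biject with the cosets over `K` fixed by `γ`, by translation by an element
of the centraliser of `γ`. -/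
theorem exists_matching_equiv (A : LevelAut σ S J n) {ι : K →+* L}
    (hι : ∀ x : L, σ x = x ↔ x ∈ Set.range ι) [Infinite K] {k : ℕ} (hnk : n = 2 * k + 1)
    (hσ : Function.Injective fun i : Fin (2 * k + 1) => (σ ^ (i : ℕ) : L ≃+* L))
    (hfixed : {x : LevelCosets S J | A.act x = x} =
      (QuotientGroup.mk (s := levelGroup S J)) '' {g | glMap σ g = g})
    (hmatch : ∀ g : (Matrix (Fin 2) (Fin 2) L)ˣ, glMap σ g = g →
      (∃ x : LevelCosets S J, g • x = x) →
      ∃ (δ₀ : (Matrix (Fin 2) (Fin 2) L)ˣ) (c : Lˣ),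
        σ (c : L) = c ∧ twistedNorm (glMap σ) δ₀ n = scalarUnit c * g ∧
          (∀ y : (Matrix (Fin 2) (Fin 2) L)ˣ, Commute y g → Commute y δ₀) ∧
          {x | twistedMap δ₀ A.act x = x} = {x | A.act x = x ∧ g • x = x})
    {γ : (Matrix (Fin 2) (Fin 2) K)ˣ} {δ : (Matrix (Fin 2) (Fin 2) L)ˣ} {c : Lˣ}
    (hc : σ (c : L) = c) (hδ : twistedNorm (glMap σ) δ n = scalarUnit c * baseUnit ι γ) :
    ∃ y : (Matrix (Fin 2) (Fin 2) L)ˣ, Commute y (baseUnit ι γ) ∧
      ∃ e : {x : LevelCosets S J // twistedMap δ A.act x = x} ≃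
          {z : BaseCosets ι S J // γ • z = z},
        ∀ x, baseCosetMap ι S J (e x : BaseCosets ι S J) = y • (x : LevelCosets S J) := by
  set g := baseUnit ι γ with hg
  by_cases hne : ∃ x : LevelCosets S J, g • x = x
  · obtain ⟨δ₀, c₀, hc₀, hN, -, hset⟩ := hmatch g (glMap_baseUnit hι γ) hne
    have : Infinite (fixedSubfield σ) := Infinite.of_injective
      (fun a : K => (⟨ι a, mem_fixedSubfield.mpr ((hι _).mpr ⟨a, rfl⟩)⟩ : fixedSubfield σ))
      (fun a b h => ι.injective (congrArg Subtype.val h))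
    have hγ₀ : glMap σ (scalarUnit c₀ * g) = scalarUnit c₀ * g := by
      rw [map_mul, glMap_scalarUnit, glMap_baseUnit hι γ,
        show Units.map σ.toRingHom.toMonoidHom c₀ = c₀ from Units.ext hc₀]
    subst hnk
    obtain ⟨y, a, hy, hya⟩ := exists_twistedConj_pgl σ hσ A.pow_eq δ₀ δ (scalarUnit c₀ * g) hγ₀
      (c / c₀) (by simp [map_div₀, hc, hc₀]) hN
      (by rw [hδ, ← mul_assoc, ← map_mul, div_mul_cancel])
    have hyg : Commute y g := by
      have h2 : Commute y ((scalarUnit c₀)⁻¹ * (scalarUnit c₀ * g)) :=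
        ((scalarUnit_commute c₀ y).symm.inv_right).mul_right hy
      rwa [inv_mul_cancel_left] at h2
    refine ⟨y, hyg, ?_⟩
    have hmem : ∀ x : {x : LevelCosets S J // twistedMap δ A.act x = x},
        ∃ z : {z : BaseCosets ι S J // γ • z = z},
          baseCosetMap ι S J (z : BaseCosets ι S J) = y • (x : LevelCosets S J) := by
      intro x
      have hx : twistedMap δ₀ A.act (y • (x : LevelCosets S J)) = y • (x : LevelCosets S J) :=
        (A.translateEquiv hya x).2
      obtain ⟨hx1, hx2⟩ := (Set.ext_iff.mp hset _).mp hx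
      obtain ⟨g₁, hg₁, hg₁'⟩ := (Set.ext_iff.mp hfixed _).mp hx1
      obtain ⟨g₀, rfl⟩ := exists_baseUnit_eq hι hg₁
      refine ⟨⟨(g₀ : BaseCosets ι S J), baseCosetMap_injective ι ?_⟩, hg₁'⟩
      rw [baseCosetMap_smul, baseCosetMap_mk, hg₁']
      exact hx2
    choose F hF using hmem
    refine ⟨Equiv.ofBijective F ⟨fun x x' h => ?_, fun z => ?_⟩, hF⟩
    · have h2 := hF x
      rw [h, hF x'] at h2
      exact Subtype.ext (MulAction.injective y h2.symm)
    · have hz : twistedMap δ₀ A.act (baseCosetMap ι S J z.1) = baseCosetMap ι S J z.1 := by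
        refine (Set.ext_iff.mp hset _).mpr ⟨?_, ?_⟩
        · obtain ⟨g₀, hg₀⟩ := QuotientGroup.mk_surjective z.1
          rw [← hg₀, baseCosetMap_mk, LevelAut.act_mk, glMap_baseUnit hι]
        · rw [hg, ← baseCosetMap_smul, z.2]
      refine ⟨(A.translateEquiv hya).symm ⟨_, hz⟩, Subtype.ext (baseCosetMap_injective ι ?_)⟩
      rw [hF, ← translateEquiv_apply A hya, Equiv.apply_symm_apply]
  · have : IsEmpty {x : LevelCosets S J // twistedMap δ A.act x = x} := ⟨fun x => hne ⟨x.1, by
      have h := A.norm_smul_eq x.2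
      rwa [hδ, mul_smul, scalarUnit_smul] at h⟩⟩
    have : IsEmpty {z : BaseCosets ι S J // γ • z = z} := ⟨fun z => hne ⟨baseCosetMap ι S J z.1, by
      rw [hg, ← baseCosetMap_smul, z.2]⟩⟩
    exact ⟨1, Commute.one_left _, Equiv.equivOfIsEmpty _ _, fun x => isEmptyElim x⟩

end Fermat.Agent.LT.Matching
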