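import Fermat.Agent.LT.Matching.Order

/-!
# Borel representatives of cosets

For a valuation ring with uniformiser `ϖ` every coset of `scalars · GL₂(S)` contains some
`[[ϖ^m, x], [0, 1]]`.
-/

set_option autoImplicit false

namespace Fermat.Agent.LT.Matching

open Fermat.Agent.CubicDescent Matrix

variable {L : Type*} [Field L]

/-- `ϖ` is a uniformiser of the valuation ring `S` of `L`. -/
structure Uniformizer (S : Subring L) (ϖ : S) : Prop where
  ne_zero : (ϖ : L) ≠ 0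
  not_isUnit : ¬ IsUnit ϖ
  exists_eq : ∀ x : L, x ≠ 0 → ∃ (m : ℤ) (u : Sˣ), x = (ϖ : L) ^ m * ((u : S) : L)

variable {S : Subring L} {ϖ : S}

/-- `S` is a valuation ring of `L`. -/
theorem Uniformizer.mem_or_inv_mem (h : Uniformizer S ϖ) (x : L) : x ∈ S ∨ x⁻¹ ∈ S := by
  by_cases hx : x = 0
  · exact Or.inl (hx ▸ S.zero_mem)
  obtain ⟨m, u, rfl⟩ := h.exists_eq x hx
  rcases Int.eq_nat_or_neg m with ⟨k, rfl | rfl⟩
  · exact Or.inl (S.mul_mem (by rw [zpow_natCast]; exact S.pow_mem ϖ.2 k) (u : S).2)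
  · refine Or.inr ?_
    rw [_root_.mul_inv_rev, zpow_neg, inv_inv, zpow_natCast,
      show ((u : S) : L)⁻¹ = (((u⁻¹ : Sˣ) : S) : L) from
        (eq_inv_of_mul_eq_one_left (congrArg Subtype.val u.inv_mul)).symm]
    exact S.mul_mem ((u⁻¹ : Sˣ) : S).2 (S.pow_mem ϖ.2 k)

/-- An element of `S` is a multiple of the uniformiser or a unit. -/
theorem Uniformizer.dvd_or_isUnit (h : Uniformizer S ϖ) (x : S) : ϖ ∣ x ∨ IsUnit x := by
  by_cases hx : (x : L) = 0
  · exact Or.inl ⟨0, Subtype.ext (by simpa using hx)⟩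
  obtain ⟨m, u, hu⟩ := h.exists_eq x hx
  rcases Int.eq_nat_or_neg m with ⟨k, rfl | rfl⟩
  · rcases k with _ | k
    · exact Or.inr ⟨u, Subtype.ext (by simpa using hu.symm)⟩
    · exact Or.inl ⟨ϖ ^ k * (u : S), Subtype.ext (by
        rw [hu, zpow_natCast]; push_cast; ring)⟩
  · rcases k with _ | k
    · exact Or.inr ⟨u, Subtype.ext (by simpa using hu.symm)⟩
    · refine absurd (IsUnit.of_mul_eq_one (a := ϖ) (x * ((u⁻¹ : Sˣ) : S) * ϖ ^ k) ?_) h.not_isUnit
      refine Subtype.ext ?_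
      have hui : ((u : S) : L) * (((u⁻¹ : Sˣ) : S) : L) = 1 := congrArg Subtype.val u.mul_inv
      push_cast
      rw [hu, zpow_neg, zpow_natCast]
      have h0 := h.ne_zero
      field_simp
      linear_combination (ϖ : L) ^ (k + 1) * hui

/-- A uniformiser generates a prime ideal. -/
theorem Uniformizer.isPrime (h : Uniformizer S ϖ) : (Ideal.span {ϖ}).IsPrime := by
  refine ⟨?_, fun {x y} hxy => ?_⟩
  · rw [Ne, Ideal.span_singleton_eq_top]; exact h.not_isUnit
  rcases h.dvd_or_isUnit x with hx | hx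
  · exact Or.inl (Ideal.mem_span_singleton.mpr hx)
  · exact Or.inr (Ideal.mem_span_singleton.mpr
      ((hx.dvd_mul_left).mp (Ideal.mem_span_singleton.mp hxy)))

/-- An element whose square is a unit of `S` is a unit of `S`. -/
theorem Uniformizer.exists_unit_of_sq (h : Uniformizer S ϖ) {c : L} {w : Sˣ}
    (hc : c ^ 2 = ((w : S) : L)) : ∃ v : Sˣ, ((v : S) : L) = c := by
  have hc0 : c ≠ 0 := by
    rintro rfl
    rw [zero_pow two_ne_zero] at hc
    exact (Units.ne_zero w) (Subtype.ext hc.symm)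
  have hmem : c ∈ S := by
    rcases h.mem_or_inv_mem c with hm | hm
    · exact hm
    · have : c = ((w : S) : L) * c⁻¹ := by rw [← hc]; field_simp
      rw [this]
      exact S.mul_mem (w : S).2 hm
  refine ⟨(IsUnit.of_mul_eq_one (a := (⟨c, hmem⟩ : S)) (⟨c, hmem⟩ * ((w⁻¹ : Sˣ) : S)) ?_).unit,
    rfl⟩
  rw [← mul_assoc, show (⟨c, hmem⟩ : S) * ⟨c, hmem⟩ = (w : S) from
    Subtype.ext (by rw [← hc, sq]; rfl), Units.mul_inv]

/-- The matrix `[[p, x], [0, 1]]`. -/
def borelUnit (p : Lˣ) (x : L) : (Matrix (Fin 2) (Fin 2) L)ˣ where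
  val := !![(p : L), x; 0, 1]
  inv := !![((p⁻¹ : Lˣ) : L), -(((p⁻¹ : Lˣ) : L) * x); 0, 1]
  val_inv := by
    ext i j; fin_cases i <;> fin_cases j <;> simp [Matrix.mul_apply, Fin.sum_univ_two]
  inv_val := by
    ext i j; fin_cases i <;> fin_cases j <;> simp [Matrix.mul_apply, Fin.sum_univ_two]

/-- The product of two upper triangular units. -/
theorem borelUnit_mul (p q : Lˣ) (x y : L) :
    borelUnit p x * borelUnit q y = borelUnit (p * q) ((p : L) * y + x) := by
  ext i j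
  fin_cases i <;> fin_cases j <;> simp [borelUnit, Matrix.mul_apply, Fin.sum_univ_two]

/-- The inverse of an upper triangular unit. -/
theorem borelUnit_inv (p : Lˣ) (x : L) :
    (borelUnit p x)⁻¹ = borelUnit p⁻¹ (-(((p⁻¹ : Lˣ) : L) * x)) := by
  ext : 1; rfl

/-- Functoriality of the upper triangular units. -/
theorem glMap_borelUnit (σ : L ≃+* L) (p : Lˣ) (x : L) :
    glMap σ (borelUnit p x) = borelUnit (Units.map σ.toRingHom.toMonoidHom p) (σ x) := by
  ext i j
  fin_cases i <;> fin_cases j <;> simp [borelUnit]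

/-- An integral Borel matrix as an element of `GL₂(S)`. -/
def borelInt (v : Sˣ) (y : S) : (Matrix (Fin 2) (Fin 2) S)ˣ where
  val := !![(v : S), y; 0, 1]
  inv := !![((v⁻¹ : Sˣ) : S), -(((v⁻¹ : Sˣ) : S) * y); 0, 1]
  val_inv := by
    ext i j; fin_cases i <;> fin_cases j <;> simp [Matrix.mul_apply, Fin.sum_univ_two]
  inv_val := by
    ext i j; fin_cases i <;> fin_cases j <;> simp [Matrix.mul_apply, Fin.sum_univ_two]

/-- An integral upper triangular unit seen over `L`. -/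
theorem coeUnit_borelInt (v : Sˣ) (y : S) :
    coeUnit S (borelInt v y) = borelUnit (Units.map S.subtype.toMonoidHom v) (y : L) := by
  ext i j
  fin_cases i <;> fin_cases j <;> simp [borelUnit, borelInt]

/-- Every element of `GL₂(L)` is `[[ϖ^m, x], [0, 1]]` times scalars times `GL₂(S)`. -/
theorem Uniformizer.exists_borel (h : Uniformizer S ϖ) (g : (Matrix (Fin 2) (Fin 2) L)ˣ) :
    ∃ (m : ℤ) (x : L) (c : Lˣ) (k : (Matrix (Fin 2) (Fin 2) S)ˣ),
      g = borelUnit (Units.mk0 ((ϖ : L) ^ m) (zpow_ne_zero m h.ne_zero)) x *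
        (scalarUnit c * coeUnit S k) := by
  set G : Matrix (Fin 2) (Fin 2) L := (g : Matrix (Fin 2) (Fin 2) L) with hG
  have hdet : G.det ≠ 0 := ((Matrix.isUnit_iff_isUnit_det G).mp g.isUnit).ne_zero
  obtain ⟨k₁, hk₁⟩ : ∃ k : (Matrix (Fin 2) (Fin 2) S)ˣ,
      (G * (k : Matrix (Fin 2) (Fin 2) S).map S.subtype) 1 0 = 0 := by
    by_cases hd : G 1 1 = 0
    · exact ⟨⟨!![0, 1; 1, 0], !![0, 1; 1, 0],
        by ext i j; fin_cases i <;> fin_cases j <;> simp,
        by ext i j; fin_cases i <;> fin_cases j <;> simp⟩,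
        by simp [Matrix.mul_apply, Fin.sum_univ_two, hd]⟩
    by_cases hc : G 1 0 = 0
    · exact ⟨1, by simpa using hc⟩
    rcases h.mem_or_inv_mem (G 1 0 / G 1 1) with hm | hm
    · set r : S := ⟨_, hm⟩ with hr
      exact ⟨⟨!![1, 0; -r, 1], !![1, 0; r, 1],
        by ext i j; fin_cases i <;> fin_cases j <;> simp,
        by ext i j; fin_cases i <;> fin_cases j <;> simp⟩,
        by simp [Matrix.mul_apply, Fin.sum_univ_two, hr]; field_simp; ring⟩
    · set r : S := ⟨_, hm⟩ with hr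
      exact ⟨⟨!![-r, 1; 1, 0], !![0, 1; 1, r],
        by ext i j; fin_cases i <;> fin_cases j <;> simp,
        by ext i j; fin_cases i <;> fin_cases j <;> simp⟩,
        by
          simp [Matrix.mul_apply, Fin.sum_univ_two, hr, inv_div]
          field_simp
          ring⟩
  set M : (Matrix (Fin 2) (Fin 2) L)ˣ := g * coeUnit S k₁ with hM
  have hM10 : (M : Matrix (Fin 2) (Fin 2) L) 1 0 = 0 := hk₁
  have hMdet : (M : Matrix (Fin 2) (Fin 2) L).det ≠ 0 :=
    ((Matrix.isUnit_iff_isUnit_det _).mp M.isUnit).ne_zero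
  rw [Matrix.det_fin_two, hM10, mul_zero, sub_zero] at hMdet
  obtain ⟨h00, h11⟩ := mul_ne_zero_iff.mp hMdet
  obtain ⟨m, u, hu⟩ := h.exists_eq _ (div_ne_zero h00 h11)
  refine ⟨m, (M : Matrix (Fin 2) (Fin 2) L) 0 1 / (M : Matrix (Fin 2) (Fin 2) L) 1 1,
    Units.mk0 _ h11, borelInt u 0 * k₁⁻¹, ?_⟩
  rw [map_mul, map_inv, ← mul_assoc, ← mul_assoc, eq_mul_inv_iff_mul_eq, ← hM,
    coeUnit_borelInt, mul_assoc, scalarUnit_comm, ← mul_assoc, borelUnit_mul]
  ext i j
  fin_cases i <;> fin_cases j <;>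
    simp [borelUnit, scalarUnit, Matrix.scalar, Matrix.mul_apply,
      Matrix.diagonal, hM10, h11, ← hu]

end Fermat.Agent.LT.Matching
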