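import Fermat.Agent.LT.Matching.Quad
import Fermat.Agent.CubicDescent.Speiser
import Mathlib.GroupTheory.Index
import Mathlib.GroupTheory.QuotientGroup.Basic

/-!
# Norms of quadratic algebras over finite fields

Hilbert 90 for a quadratic algebra over a field with a cyclic automorphism, and, by counting,
surjectivity of the norm onto the fixed units when the field is finite.
-/

set_option autoImplicit false

namespace Fermat.Agent.LT.Matching

open QuadraticAlgebra Fermat.Agent.CubicDescent Finset

/-- The trace is fixed by the automorphism. -/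
theorem apply_autTrace {S : Type*} [CommRing S] {σ : S ≃+* S} {n : ℕ} (hσ : σ ^ n = 1) (u : S) :
    σ (autTrace σ n u) = autTrace σ n u := by
  cases n with
  | zero => simp [autTrace]
  | succ m =>
    rw [autTrace, map_sum]
    calc ∑ i ∈ range (m + 1), σ ((σ ^ i) u)
        = ∑ i ∈ range (m + 1), (σ ^ (i + 1)) u :=
          Finset.sum_congr rfl fun i _ => by rw [pow_succ', RingAut.mul_apply]
      _ = ∑ i ∈ range (m + 1), (σ ^ i) u := by
        rw [sum_range_succ, sum_range_succ', hσ]
        rfl

/-- Fixed elements pull out of the trace. -/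
theorem autTrace_fixed_mul {S : Type*} [CommRing S] {σ : S ≃+* S} {c : S} (hc : σ c = c)
    (n : ℕ) (u : S) :
    autTrace σ n (c * u) = c * autTrace σ n u := by
  simp only [autTrace, map_mul, aut_pow_fixed hc, Finset.mul_sum]

section Counting

variable {B : Type*} [CommRing B]

/-- If Hilbert 90 holds in a finite ring, every fixed unit is a norm. -/
theorem exists_autNorm_eq_of_finite [Finite B] (σ : B ≃+* B) {n : ℕ} (hσ : σ ^ n = 1)
    (h90 : ∀ u : B, autNorm σ n u = 1 → ∃ w, IsUnit w ∧ u * σ w = w)
    {r : B} (hr : σ r = r) (hru : IsUnit r) : ∃ u, autNorm σ n u = r := by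
  let N₀ : B →* B :=
    { toFun := autNorm σ n
      map_one' := by simp [autNorm]
      map_mul' := autNorm_mul σ n }
  let s : Bˣ →* Bˣ := Units.map σ.toRingHom.toMonoidHom
  let N : Bˣ →* Bˣ := Units.map N₀
  let ψ : Bˣ →* Bˣ := MonoidHom.id Bˣ / s
  have hψ : ∀ w, w ∈ ψ.ker ↔ s w = w := fun w => by
    rw [MonoidHom.mem_ker, show ψ w = w / s w from rfl, div_eq_one, eq_comm]
  have hsN : ∀ w, N (s w) = s (N w) := fun w => by
    ext : 1
    exact (map_autNorm σ.toRingHom (fun _ => rfl) n (w : B)).symm
  have hNfix : ∀ w, s (N w) = N w := fun w => by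
    ext : 1
    exact apply_autNorm hσ (w : B)
  have hker : N.ker = ψ.range := by
    refine le_antisymm (fun u hu => ?_) ?_
    · obtain ⟨w, hw, he⟩ := h90 u (congrArg Units.val (MonoidHom.mem_ker.mp hu))
      refine ⟨hw.unit, ?_⟩
      show hw.unit / s hw.unit = u
      rw [div_eq_iff_eq_mul]
      ext : 1
      simpa [s] using he.symm
    · rintro _ ⟨w, rfl⟩
      rw [MonoidHom.mem_ker, show ψ w = w / s w from rfl, map_div, hsN, hNfix, div_self']
  have hle : N.range ≤ ψ.ker := by
    rintro _ ⟨w, rfl⟩
    exact (hψ _).mpr (hNfix w)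
  have : Finite Bˣ := Finite.of_injective _ Units.val_injective
  have hcard : Nat.card N.range = Nat.card ψ.ker := by
    have h1 : Nat.card N.range * Nat.card N.ker = Nat.card Bˣ := by
      rw [← Subgroup.index_ker, Subgroup.index_mul_card]
    have h2 : Nat.card ψ.range * Nat.card ψ.ker = Nat.card Bˣ := by
      rw [← Subgroup.index_ker, Subgroup.index_mul_card]
    rw [hker] at h1
    have hpos : 0 < Nat.card ψ.range := Nat.card_pos
    refine Nat.eq_of_mul_eq_mul_left hpos ?_
    rw [mul_comm, h1, h2]
  have heq : N.range = ψ.ker := Subgroup.eq_of_le_of_card_ge hle hcard.ge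
  obtain ⟨u, hu⟩ : hru.unit ∈ N.range := heq ▸ (hψ _).mpr (Units.ext (by simpa [s] using hr))
  exact ⟨u, by simpa [N, N₀] using congrArg Units.val hu⟩

end Counting

variable {k : Type*} [Field k]

/-- Hilbert 90 for a quadratic algebra over a field. -/
theorem hilbertNinety_quad (τ : k ≃+* k) {n : ℕ} (hn : 0 < n)
    (hinj : Function.Injective fun i : Fin n => (τ ^ (i : ℕ) : k ≃+* k)) (hτ : τ ^ n = 1)
    {a b : k} (ha : τ a = a) (hb : τ b = b) (u : QuadraticAlgebra k a b)
    (hu : autNorm (quadAut τ ha hb) n u = 1) :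
    ∃ w, IsUnit w ∧ u * quadAut τ ha hb w = w := by
  set T := quadAut τ ha hb with hT
  let φ : QuadraticAlgebra k a b →+ QuadraticAlgebra k a b :=
    (AddMonoidHom.mulLeft u).comp T.toRingHom.toAddMonoidHom
  have hφ : ∀ w, φ w = u * T w := fun _ => rfl
  have hsemi : ∀ (c : k) (w : QuadraticAlgebra k a b), φ (c • w) = τ c • φ w := by
    intro c w
    rw [hφ, hφ, ← mul_smul_comm]
    congr 1
    ext <;> simp [hT]
  have hit : ∀ (i : ℕ) (w : QuadraticAlgebra k a b),
      (⇑φ)^[i] w = autNorm T i u * (T ^ i) w := by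
    intro i w
    induction i with
    | zero => simp [autNorm]
    | succ i ih =>
      rw [Function.iterate_succ_apply', ih, hφ, map_mul, autNorm, autNorm, map_prod,
        prod_range_succ' _ i, pow_succ' T i, RingAut.mul_apply]
      simp only [pow_succ', RingAut.mul_apply, pow_zero, RingAut.one_apply]
      ring
  have hspan := span_semilinearFixed_eq_top τ hn hinj φ hsemi (fun w => by
    rw [hit, hu, one_mul, show T ^ n = 1 from quadAut_pow_eq_one τ ha hb hτ]; rfl)
  by_contra hcon
  simp only [not_exists, not_and] at hcon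
  have h0 : ∀ w, φ w = w → QuadraticAlgebra.norm w = 0 := by
    intro w hw
    by_contra h
    exact hcon w (isUnit_iff_norm_isUnit.mpr (isUnit_iff_ne_zero.mpr h)) hw
  let B : QuadraticAlgebra k a b → QuadraticAlgebra k a b → k :=
    fun x y => QuadraticAlgebra.norm (x + y) - QuadraticAlgebra.norm x - QuadraticAlgebra.norm y
  have hBadd : ∀ x y z, B x (y + z) = B x y + B x z := fun x y z => by
    simp [B, norm_def]; ring
  have hBsmul : ∀ (c : k) x y, B x (c • y) = c * B x y := fun c x y => by
    simp [B, norm_def]; ring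
  have hBcomm : ∀ x y, B x y = B y x := fun x y => by simp [B, add_comm x y]; ring
  have hB : ∀ x, φ x = x → ∀ y, B x y = 0 := by
    intro x hx y
    have hy : y ∈ Submodule.span k {w | φ w = w} := hspan ▸ Submodule.mem_top
    induction hy using Submodule.span_induction with
    | mem y hy =>
      simp only [B, h0 x hx, h0 y hy, sub_zero]
      exact h0 _ (by rw [map_add, hx, hy])
    | zero => simpa using hBsmul 0 x 0
    | add y z _ _ h1 h2 => rw [hBadd, h1, h2, add_zero]
    | smul c y _ h => rw [hBsmul, h, mul_zero]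
  have hN : ∀ y : QuadraticAlgebra k a b, QuadraticAlgebra.norm y = 0 := by
    intro y
    have hy : y ∈ Submodule.span k {w | φ w = w} := hspan ▸ Submodule.mem_top
    suffices h : QuadraticAlgebra.norm y = 0 ∧ ∀ x, B y x = 0 from h.1
    induction hy using Submodule.span_induction with
    | mem y hy => exact ⟨h0 y hy, hB y hy⟩
    | zero => exact ⟨by simp [norm_def], fun x => by simp [B, norm_def]⟩
    | add y z _ _ h1 h2 =>
      refine ⟨?_, fun x => by rw [hBcomm, hBadd, hBcomm x, hBcomm x, h1.2, h2.2, add_zero]⟩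
      have h := h1.2 z
      simp only [B, h1.1, h2.1, sub_zero] at h
      exact h
    | smul c y _ h =>
      refine ⟨?_, fun x => by rw [hBcomm, hBsmul, hBcomm, h.2, mul_zero]⟩
      have h' : QuadraticAlgebra.norm (c • y) = c ^ 2 * QuadraticAlgebra.norm y := by
        simp [norm_def]; ring
      rw [h', h.1, mul_zero]
  simpa using hN 1

/-- Over a finite field every fixed unit of a quadratic algebra is a norm. -/
theorem exists_autNorm_quad_finite [Finite k] (τ : k ≃+* k) {n : ℕ} (hn : 0 < n)
    (hinj : Function.Injective fun i : Fin n => (τ ^ (i : ℕ) : k ≃+* k)) (hτ : τ ^ n = 1)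
    {a b : k} (ha : τ a = a) (hb : τ b = b) {r : QuadraticAlgebra k a b}
    (hr : quadAut τ ha hb r = r) (hru : IsUnit r) :
    ∃ u, autNorm (quadAut τ ha hb) n u = r := by
  have : Finite (QuadraticAlgebra k a b) := Finite.of_equiv _ (equivProd a b).symm
  exact exists_autNorm_eq_of_finite _ (quadAut_pow_eq_one τ ha hb hτ)
    (hilbertNinety_quad τ hn hinj hτ ha hb) hr hru

/-- A cyclic automorphism has an element of trace one. -/
theorem exists_autTrace_eq_one (τ : k ≃+* k) {n : ℕ} (hn : 0 < n)
    (hinj : Function.Injective fun i : Fin n => (τ ^ (i : ℕ) : k ≃+* k)) (hτ : τ ^ n = 1) :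
    ∃ x, autTrace τ n x = 1 := by
  have hx : ∃ x, autTrace τ n x ≠ 0 := by
    by_contra hcon
    simp only [not_exists, not_not] at hcon
    have hli : LinearIndependent k fun i : Fin n =>
        (⇑((τ ^ (i : ℕ) : k ≃+* k).toMonoidHom) : k → k) :=
      (linearIndependent_monoidHom k k).comp
        (fun i : Fin n => (τ ^ (i : ℕ) : k ≃+* k).toMonoidHom)
        (fun i j hij => hinj (RingEquiv.ext fun a => DFunLike.congr_fun hij a))
    have := Fintype.linearIndependent_iff.mp hli (fun _ => 1) (by
      funext a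
      simpa [autTrace, Finset.sum_apply, Finset.sum_range] using hcon a) ⟨0, hn⟩
    exact one_ne_zero this
  obtain ⟨x, hx⟩ := hx
  have hfix : τ (autTrace τ n x)⁻¹ = (autTrace τ n x)⁻¹ := by
    rw [map_inv₀, apply_autTrace hτ]
  exact ⟨(autTrace τ n x)⁻¹ * x, by rw [autTrace_fixed_mul hfix, inv_mul_cancel₀ hx]⟩

end Fermat.Agent.LT.Matching
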