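import Fermat.Agent.LT.Matching.Quad
import Fermat.Agent.CubicDescent.NormClasses
import Fermat.Agent.CubicDescent.Orbital

/-!
# Level cosets of `PGL₂` over a local field and the twisted action

`levelGroup S J` is scalars times the principal congruence subgroup of level `J` of `GL₂(S)`;
its coset space is `PGL₂(L)/U_J`. We record the twisted iterate, translation of twisted fixed
points, and the stability of fixed cosets under the order generated by `γ`.
-/

set_option autoImplicit false

namespace Fermat.Agent.LT.Matching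

open Fermat.Agent.CubicDescent Matrix

variable {L : Type*} [Field L]

section Iterate

variable {G X F : Type*} [Group G] [MulAction G X] [FunLike F G G]

/-- The iterate of the twisted map is translation by the twisted norm. -/
theorem twistedMap_iterate (δ : G) (f : F) (s : X → X) (hs : ∀ g x, s (g • x) = f g • s x)
    (i : ℕ) (x : X) : (twistedMap δ s)^[i] x = twistedNorm f δ i • s^[i] x := by
  induction i with
  | zero => simp [twistedNorm]
  | succ i ih =>
    rw [Function.iterate_succ_apply', ih, twistedMap, hs, Function.iterate_succ_apply',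
      twistedNorm_succ, mul_smul]

/-- A twisted fixed point is fixed by the norm. -/
theorem twistedNorm_smul_eq {δ : G} {f : F} {s : X → X} (hs : ∀ g x, s (g • x) = f g • s x)
    {n : ℕ} (hsn : ∀ x, s^[n] x = x) {x : X} (hx : twistedMap δ s x = x) :
    twistedNorm f δ n • x = x := by
  have h := twistedMap_iterate δ f s hs n x
  rwa [Function.iterate_fixed hx, hsn, eq_comm] at h

end Iterate

/-- The inclusion of `GL₂(S)`. -/
def coeUnit (S : Subring L) :
    (Matrix (Fin 2) (Fin 2) S)ˣ →* (Matrix (Fin 2) (Fin 2) L)ˣ :=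
  Units.map (S.subtype.mapMatrix : Matrix (Fin 2) (Fin 2) S →+* Matrix (Fin 2) (Fin 2) L).toMonoidHom

/-- The matrix underlying an integral unit seen over `L`. -/
@[simp] theorem coe_coeUnit (S : Subring L) (u : (Matrix (Fin 2) (Fin 2) S)ˣ) :
    (coeUnit S u : Matrix (Fin 2) (Fin 2) L) = (u : Matrix (Fin 2) (Fin 2) S).map S.subtype := rfl

/-- The principal congruence subgroup. -/
def congrLevel {S : Subring L} (J : Ideal S) : Subgroup (Matrix (Fin 2) (Fin 2) S)ˣ :=
  (Units.map ((Ideal.Quotient.mk J).mapMatrix :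
    Matrix (Fin 2) (Fin 2) S →+* Matrix (Fin 2) (Fin 2) (S ⧸ J)).toMonoidHom).ker

/-- Membership in the congruence subgroup, entrywise. -/
theorem mem_congrLevel {S : Subring L} {J : Ideal S} {u : (Matrix (Fin 2) (Fin 2) S)ˣ} :
    u ∈ congrLevel J ↔
      ∀ i j, (u : Matrix (Fin 2) (Fin 2) S) i j - (1 : Matrix (Fin 2) (Fin 2) S) i j ∈ J := by
  rw [congrLevel, MonoidHom.mem_ker, Units.ext_iff]
  simp only [Units.coe_map, Units.val_one]
  rw [show ((Ideal.Quotient.mk J).mapMatrix : Matrix (Fin 2) (Fin 2) S →+* _).toMonoidHom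
      (u : Matrix (Fin 2) (Fin 2) S) = (u : Matrix (Fin 2) (Fin 2) S).map (Ideal.Quotient.mk J)
    from rfl, ← Matrix.ext_iff]
  refine forall_congr' fun i => forall_congr' fun j => ?_
  rw [← Ideal.Quotient.eq]
  by_cases h : i = j <;> simp [h, Matrix.one_apply]

instance congrLevel_normal {S : Subring L} (J : Ideal S) : (congrLevel J).Normal :=
  MonoidHom.normal_ker _

/-- Scalars are central. -/
theorem scalarUnit_commute (c : Lˣ) (g : (Matrix (Fin 2) (Fin 2) L)ˣ) :
    Commute (scalarUnit c) g := scalarUnit_comm c g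

/-- Scalars times the congruence subgroup. -/
def levelGroup (S : Subring L) (J : Ideal S) : Subgroup (Matrix (Fin 2) (Fin 2) L)ˣ where
  carrier := {g | ∃ c : Lˣ, ∃ u ∈ congrLevel J, g = scalarUnit c * coeUnit S u}
  one_mem' := ⟨1, 1, one_mem _, by simp⟩
  mul_mem' := by
    rintro _ _ ⟨c, u, hu, rfl⟩ ⟨d, v, hv, rfl⟩
    refine ⟨c * d, u * v, mul_mem hu hv, ?_⟩
    rw [map_mul, map_mul, (scalarUnit_commute d (coeUnit S u)).symm.mul_mul_mul_comm]
  inv_mem' := by
    rintro _ ⟨c, u, hu, rfl⟩
    refine ⟨c⁻¹, u⁻¹, inv_mem hu, ?_⟩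
    rw [_root_.mul_inv_rev, map_inv, map_inv, (scalarUnit_commute c _).inv_inv.eq]

/-- Scalars lie in the level group. -/
theorem scalarUnit_mem_levelGroup (S : Subring L) (J : Ideal S) (c : Lˣ) :
    scalarUnit c ∈ levelGroup S J := ⟨c, 1, one_mem _, by simp⟩

/-- The congruence subgroup lies in the level group. -/
theorem coeUnit_mem_levelGroup {S : Subring L} {J : Ideal S}
    {u : (Matrix (Fin 2) (Fin 2) S)ˣ} (hu : u ∈ congrLevel J) : coeUnit S u ∈ levelGroup S J :=
  ⟨1, u, hu, by simp⟩

/-- The coset space `PGL₂(L)/U_J`. -/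
abbrev LevelCosets (S : Subring L) (J : Ideal S) : Type _ :=
  (Matrix (Fin 2) (Fin 2) L)ˣ ⧸ levelGroup S J

/-- Scalars act trivially on the level cosets. -/
theorem scalarUnit_smul {S : Subring L} {J : Ideal S} (c : Lˣ) (x : LevelCosets S J) :
    scalarUnit (ι := Fin 2) c • x = x := by
  induction x using QuotientGroup.induction_on with
  | _ g =>
    rw [MulAction.Quotient.smul_mk, smul_eq_mul, scalarUnit_comm c g,
      QuotientGroup.mk_mul_of_mem g (scalarUnit_mem_levelGroup S J c)]

/-- The stabiliser of a coset is a conjugate of the level group. -/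
theorem smul_mk_eq_iff {S : Subring L} {J : Ideal S} (γ g : (Matrix (Fin 2) (Fin 2) L)ˣ) :
    γ • (g : LevelCosets S J) = g ↔ g⁻¹ * γ * g ∈ levelGroup S J := by
  rw [MulAction.Quotient.smul_mk, smul_eq_mul, eq_comm, QuotientGroup.eq, mul_assoc]

/-- Compatibility of `σ` with an automorphism of `S` preserving `J`. -/
structure LevelAut (σ : L ≃+* L) (S : Subring L) (J : Ideal S) (n : ℕ) where
  /-- The restriction of `σ` to `S`. -/
  aut : S ≃+* S
  coe_aut : ∀ x : S, ((aut x : S) : L) = σ x
  map_mem : ∀ x ∈ J, aut x ∈ J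
  pow_eq : σ ^ n = 1

variable {σ : L ≃+* L} {S : Subring L} {J : Ideal S} {n : ℕ}

/-- The powers of the integral automorphism are the restrictions of those of `σ`. -/
theorem LevelAut.aut_pow_coe (A : LevelAut σ S J n) (x : S) (i : ℕ) :
    (((A.aut ^ i) x : S) : L) = (σ ^ i) (x : L) := by
  induction i with
  | zero => rfl
  | succ i ih => rw [pow_succ', pow_succ', RingAut.mul_apply, RingAut.mul_apply, A.coe_aut, ih]

/-- The integral automorphism has order dividing `n`. -/
theorem LevelAut.aut_pow_eq (A : LevelAut σ S J n) : A.aut ^ n = 1 := by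
  refine RingEquiv.ext fun x => Subtype.ext ?_
  rw [A.aut_pow_coe, A.pow_eq]
  rfl

/-- The automorphism on integral units. -/
theorem LevelAut.glMap_coeUnit (A : LevelAut σ S J n) (u : (Matrix (Fin 2) (Fin 2) S)ˣ) :
    glMap σ (coeUnit S u) =
      coeUnit S (Units.map (A.aut.toRingHom.mapMatrix :
        Matrix (Fin 2) (Fin 2) S →+* _).toMonoidHom u) := by
  ext : 1
  ext i j
  simp [A.coe_aut]

theorem LevelAut.map_levelGroup (A : LevelAut σ S J n) {g : (Matrix (Fin 2) (Fin 2) L)ˣ}
    (hg : g ∈ levelGroup S J) : glMap σ g ∈ levelGroup S J := by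
  obtain ⟨c, u, hu, rfl⟩ := hg
  rw [map_mul, glMap_scalarUnit, A.glMap_coeUnit]
  refine ⟨_, _, ?_, rfl⟩
  rw [mem_congrLevel] at hu ⊢
  intro i j
  have h := A.map_mem _ (hu i j)
  rw [map_sub] at h
  by_cases hij : i = j <;> simpa [hij, Matrix.one_apply] using h

/-- The action of `σ` on level cosets. -/
noncomputable def LevelAut.act (A : LevelAut σ S J n) : LevelCosets S J → LevelCosets S J :=
  Quotient.map' (glMap σ) fun a b h => by
    rw [QuotientGroup.leftRel_apply] at h ⊢
    rw [← map_inv, ← map_mul]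
    exact A.map_levelGroup h

/-- The action on the class of an element. -/
@[simp] theorem LevelAut.act_mk (A : LevelAut σ S J n) (g : (Matrix (Fin 2) (Fin 2) L)ˣ) :
    A.act (g : LevelCosets S J) = ((glMap σ g : (Matrix (Fin 2) (Fin 2) L)ˣ) : LevelCosets S J) :=
  rfl

/-- The action is semilinear for the translations. -/
theorem LevelAut.act_smul (A : LevelAut σ S J n) (g : (Matrix (Fin 2) (Fin 2) L)ˣ)
    (x : LevelCosets S J) : A.act (g • x) = glMap σ g • A.act x := by
  induction x using QuotientGroup.induction_on with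
  | _ h => simp [MulAction.Quotient.smul_mk, smul_eq_mul]

/-- The action has order dividing `n`. -/
theorem LevelAut.act_iterate (A : LevelAut σ S J n) (x : LevelCosets S J) : A.act^[n] x = x := by
  induction x using QuotientGroup.induction_on with
  | _ g =>
    have h : ∀ i : ℕ, A.act^[i] (g : LevelCosets S J) =
        (((⇑(glMap σ))^[i] g : (Matrix (Fin 2) (Fin 2) L)ˣ) : LevelCosets S J) := by
      intro i
      induction i with
      | zero => rfl
      | succ i ih => rw [Function.iterate_succ_apply', Function.iterate_succ_apply', ih, act_mk]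
    rw [h]
    congr 1
    ext : 1
    rw [glMap_iterate, A.pow_eq]
    ext; simp

/-- A twisted fixed coset is fixed by the norm. -/
theorem LevelAut.norm_smul_eq (A : LevelAut σ S J n) {δ : (Matrix (Fin 2) (Fin 2) L)ˣ}
    {x : LevelCosets S J} (hx : twistedMap δ A.act x = x) :
    twistedNorm (glMap σ) δ n • x = x :=
  twistedNorm_smul_eq A.act_smul A.act_iterate hx

/-- Twisted conjugation transports twisted fixed cosets. -/
noncomputable def LevelAut.translateEquiv (A : LevelAut σ S J n)
    {δ δ' y : (Matrix (Fin 2) (Fin 2) L)ˣ} {a : Lˣ}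
    (h : scalarUnit a * (δ * glMap σ y) = y * δ') :
    {x // twistedMap δ' A.act x = x} ≃ {x // twistedMap δ A.act x = x} :=
  (MulAction.toPerm y).subtypeEquiv fun x => by
    show δ' • A.act x = x ↔ δ • A.act (y • x) = y • x
    rw [A.act_smul, ← mul_smul, ← scalarUnit_smul a ((δ * glMap σ y) • A.act x), ← mul_smul, h,
      mul_smul, (MulAction.injective y).eq_iff]

/-- The translation equivalence is translation by `y`. -/
theorem translateEquiv_apply (A : LevelAut σ S J n)
    {δ δ' y : (Matrix (Fin 2) (Fin 2) L)ˣ} {a : Lˣ}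
    (h : scalarUnit a * (δ * glMap σ y) = y * δ') (x : {x // twistedMap δ' A.act x = x}) :
    (A.translateEquiv h x : LevelCosets S J) = y • (x : LevelCosets S J) := rfl

/-- An integral conjugate determines the element of the order acting on a coset. -/
theorem root_smul_eq {a b : S} {γ g : (Matrix (Fin 2) (Fin 2) L)ˣ}
    {u : (Matrix (Fin 2) (Fin 2) S)ˣ} (hconj : γ * g = g * coeUnit S u) (hu : u ∈ congrLevel J)
    (hsq : (u : Matrix (Fin 2) (Fin 2) S) * u = a • 1 + b • (u : Matrix (Fin 2) (Fin 2) S))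
    {δ : (Matrix (Fin 2) (Fin 2) L)ˣ} {z : QuadraticAlgebra S a b} (hz : IsUnit z)
    (hδ : (δ : Matrix (Fin 2) (Fin 2) L) =
      (z.re : L) • 1 + (z.im : L) • (γ : Matrix (Fin 2) (Fin 2) L))
    {e : Sˣ} (he : z.re + z.im - (e : S) ∈ J) :
    δ • (g : LevelCosets S J) = g := by
  let ψ := QuadraticAlgebra.lift ⟨(u : Matrix (Fin 2) (Fin 2) S), hsq⟩
  have hψ : ψ z = z.re • (1 : Matrix (Fin 2) (Fin 2) S) + z.im • (u : Matrix (Fin 2) (Fin 2) S) :=
    rfl
  have hconjm : (γ : Matrix (Fin 2) (Fin 2) L) * g = g * (u : Matrix (Fin 2) (Fin 2) S).map S.subtype :=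
    congrArg Units.val hconj
  set U := (hz.map ψ).unit with hUdef
  have hU : δ * g = g * coeUnit S U := by
    ext : 1
    rw [Units.val_mul, Units.val_mul, coe_coeUnit, hUdef, IsUnit.unit_spec, hψ, hδ, add_mul,
      smul_mul_assoc, smul_mul_assoc, hconjm, one_mul,
      Matrix.map_add (hf := fun x y => map_add S.subtype x y),
      Matrix.map_smul' (hf := fun x y => map_mul S.subtype x y),
      Matrix.map_smul' (hf := fun x y => map_mul S.subtype x y),
      Matrix.map_one (f := S.subtype) (map_zero _) (map_one _), mul_add, mul_smul_comm,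
      mul_smul_comm, mul_one]
    rfl
  rw [smul_mk_eq_iff, mul_assoc, hU, inv_mul_cancel_left]
  let eu : (Matrix (Fin 2) (Fin 2) S)ˣ := Units.map (Matrix.scalar (Fin 2)).toMonoidHom e
  have h1 : eu⁻¹ * U ∈ congrLevel J := by
    rw [mem_congrLevel] at hu
    rw [mem_congrLevel]
    intro i j
    have hval : ((eu⁻¹ * U : (Matrix (Fin 2) (Fin 2) S)ˣ) : Matrix (Fin 2) (Fin 2) S) i j =
        ((e⁻¹ : Sˣ) : S) * (z.re * (1 : Matrix (Fin 2) (Fin 2) S) i j +
          z.im * (u : Matrix (Fin 2) (Fin 2) S) i j) := by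
      rw [Units.val_mul, hUdef, IsUnit.unit_spec, hψ, show (eu⁻¹ : (Matrix (Fin 2) (Fin 2) S)ˣ) =
        Units.map (Matrix.scalar (Fin 2)).toMonoidHom e⁻¹ from (map_inv _ e).symm]
      simp [Matrix.scalar, mul_add]
    rw [hval]
    set o := (1 : Matrix (Fin 2) (Fin 2) S) i j
    have h : ((e⁻¹ : Sˣ) : S) * (z.re * o + z.im * (u : Matrix (Fin 2) (Fin 2) S) i j) - o =
        ((e⁻¹ : Sˣ) : S) * (z.im * ((u : Matrix (Fin 2) (Fin 2) S) i j - o) +
          o * (z.re + z.im - (e : S))) := by
      linear_combination o * e.inv_mul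
    rw [h]
    exact J.mul_mem_left _ (J.add_mem (J.mul_mem_left _ (hu i j)) (J.mul_mem_left _ he))
  have h2 : coeUnit S U =
      scalarUnit (Units.map S.subtype.toMonoidHom e) * coeUnit S (eu⁻¹ * U) := by
    have h : coeUnit S eu = scalarUnit (Units.map S.subtype.toMonoidHom e) := by
      ext i j
      by_cases hij : i = j <;> simp [eu, scalarUnit, Matrix.scalar, Matrix.diagonal, hij]
    rw [← h, ← map_mul, mul_inv_cancel_left]
  rw [h2]
  exact ⟨_, _, h1, rfl⟩

end Fermat.Agent.LT.Matching
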