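import Fermat.Agent.LT.Matching.Level

/-!
# The order generated by a normalised element and the abstract matching statement

If `γ` is rational, integral on some coset and has a norm preimage `z` in `S[γ]` congruent to a
scalar modulo `J`, then the twisted fixed cosets of `δ₀ = z(γ)` are exactly the `σ`-fixed cosets
fixed by `γ`.
-/

set_option autoImplicit false

namespace Fermat.Agent.LT.Matching

open Fermat.Agent.CubicDescent Matrix

/-- Cayley–Hamilton in rank two. -/
theorem mul_self_eq_fin_two {R : Type*} [CommRing R] (A : Matrix (Fin 2) (Fin 2) R) :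
    A * A = (-A.det) • (1 : Matrix (Fin 2) (Fin 2) R) + A.trace • A := by
  ext i j
  fin_cases i <;> fin_cases j <;>
    simp [Matrix.mul_apply, Fin.sum_univ_two, Matrix.det_fin_two, Matrix.trace_fin_two] <;> ring

variable {L : Type*} [Field L] {σ : L ≃+* L} {S : Subring L} {J : Ideal S} {n : ℕ}

section OrderHom

variable {a b : S} {γ : (Matrix (Fin 2) (Fin 2) L)ˣ}

/-- The order `S[γ]` mapped to matrices. -/
noncomputable def orderHom
    (hsq : (γ : Matrix (Fin 2) (Fin 2) L) * γ =
      (a : L) • 1 + (b : L) • (γ : Matrix (Fin 2) (Fin 2) L)) :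
    QuadraticAlgebra S a b →+* Matrix (Fin 2) (Fin 2) L :=
  (QuadraticAlgebra.lift ⟨(γ : Matrix (Fin 2) (Fin 2) L), hsq⟩).toRingHom.comp
    (quadMap S.subtype rfl rfl)

theorem orderHom_apply
    (hsq : (γ : Matrix (Fin 2) (Fin 2) L) * γ =
      (a : L) • 1 + (b : L) • (γ : Matrix (Fin 2) (Fin 2) L)) (z : QuadraticAlgebra S a b) :
    orderHom hsq z = (z.re : L) • 1 + (z.im : L) • (γ : Matrix (Fin 2) (Fin 2) L) := rfl

theorem orderHom_map (A : LevelAut σ S J n)
    (hsq : (γ : Matrix (Fin 2) (Fin 2) L) * γ =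
      (a : L) • 1 + (b : L) • (γ : Matrix (Fin 2) (Fin 2) L))
    (hγ : glMap σ γ = γ) (ha : A.aut a = a) (hb : A.aut b = b) (z : QuadraticAlgebra S a b) :
    (orderHom hsq z).map σ = orderHom hsq (quadAut A.aut ha hb z) := by
  have hm : (γ : Matrix (Fin 2) (Fin 2) L).map σ = γ := congrArg Units.val hγ
  rw [orderHom_apply, orderHom_apply, Matrix.map_add (hf := fun x y => map_add σ x y),
    Matrix.map_smul' (hf := fun x y => map_mul σ x y),
    Matrix.map_smul' (hf := fun x y => map_mul σ x y),
    Matrix.map_one (f := σ) (map_zero σ) (map_one σ), hm, re_quadAut, im_quadAut, A.coe_aut,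
    A.coe_aut]

/-- The unit of `GL₂(L)` attached to a unit of the order. -/
noncomputable def orderUnit
    (hsq : (γ : Matrix (Fin 2) (Fin 2) L) * γ =
      (a : L) • 1 + (b : L) • (γ : Matrix (Fin 2) (Fin 2) L))
    {z : QuadraticAlgebra S a b} (hz : IsUnit z) : (Matrix (Fin 2) (Fin 2) L)ˣ :=
  (hz.map (orderHom hsq)).unit

/-- The twisted norm of a unit of the order is the image of its norm. -/
theorem coe_twistedNorm_orderUnit (A : LevelAut σ S J n)
    (hsq : (γ : Matrix (Fin 2) (Fin 2) L) * γ =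
      (a : L) • 1 + (b : L) • (γ : Matrix (Fin 2) (Fin 2) L))
    (hγ : glMap σ γ = γ) (ha : A.aut a = a) (hb : A.aut b = b)
    {z : QuadraticAlgebra S a b} (hz : IsUnit z) (i : ℕ) :
    ((twistedNorm (glMap σ) (orderUnit hsq hz) i : (Matrix (Fin 2) (Fin 2) L)ˣ) :
        Matrix (Fin 2) (Fin 2) L) =
      orderHom hsq (autNorm (quadAut A.aut ha hb) i z) := by
  have hit : ∀ j : ℕ, ((((⇑(glMap σ))^[j]) (orderUnit hsq hz) : (Matrix (Fin 2) (Fin 2) L)ˣ) :
      Matrix (Fin 2) (Fin 2) L) = orderHom hsq ((quadAut A.aut ha hb ^ j) z) := by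
    intro j
    induction j with
    | zero => rfl
    | succ j ih =>
      rw [Function.iterate_succ_apply', coe_glMap, ih, orderHom_map A hsq hγ ha hb, pow_succ',
        RingAut.mul_apply]
  induction i with
  | zero => simp [twistedNorm, autNorm]
  | succ i ih =>
    rw [twistedNorm_succ', Units.val_mul, ih, hit, autNorm, autNorm, Finset.prod_range_succ,
      map_mul]

/-- Units of the order commute with the centraliser of `γ`. -/
theorem commute_orderUnit
    (hsq : (γ : Matrix (Fin 2) (Fin 2) L) * γ =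
      (a : L) • 1 + (b : L) • (γ : Matrix (Fin 2) (Fin 2) L))
    {z : QuadraticAlgebra S a b} (hz : IsUnit z) {y : (Matrix (Fin 2) (Fin 2) L)ˣ}
    (hy : Commute y γ) : Commute y (orderUnit hsq hz) := by
  refine Units.ext ?_
  rw [Units.val_mul, Units.val_mul, orderUnit, IsUnit.unit_spec, orderHom_apply, mul_add, add_mul,
    mul_smul_comm, mul_smul_comm, smul_mul_assoc, smul_mul_assoc, mul_one, one_mul]
  exact congrArg (fun M => (z.re : L) • (y : Matrix (Fin 2) (Fin 2) L) + (z.im : L) • M)
    (congrArg Units.val hy.eq)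

end OrderHom

/-- A normalised rational element, integral on some coset, satisfies an `S`-quadratic relation. -/
theorem exists_quadratic_relation (A : LevelAut σ S J n)
    {γ g : (Matrix (Fin 2) (Fin 2) L)ˣ} (hγ : glMap σ γ = γ)
    {u : (Matrix (Fin 2) (Fin 2) S)ˣ} (hconj : γ * g = g * coeUnit S u) :
    ∃ a b : S, A.aut a = a ∧ A.aut b = b ∧ IsUnit a ∧
      a = -(u : Matrix (Fin 2) (Fin 2) S).det ∧ b = (u : Matrix (Fin 2) (Fin 2) S).trace ∧
      (γ : Matrix (Fin 2) (Fin 2) L) * γ =
        (a : L) • 1 + (b : L) • (γ : Matrix (Fin 2) (Fin 2) L) := by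
  set U : Matrix (Fin 2) (Fin 2) S := (u : Matrix (Fin 2) (Fin 2) S) with hU
  have hm : (γ : Matrix (Fin 2) (Fin 2) L) * g = g * U.map S.subtype := congrArg Units.val hconj
  have hγ' : (γ : Matrix (Fin 2) (Fin 2) L) = g * U.map S.subtype * (g⁻¹).val := by
    rw [← hm, mul_assoc, Units.mul_inv, mul_one]
  have hdet : (γ : Matrix (Fin 2) (Fin 2) L).det = ((U.det : S) : L) := by
    rw [hγ', Matrix.det_units_conj]
    exact (RingHom.map_det S.subtype U).symm
  have htr : (γ : Matrix (Fin 2) (Fin 2) L).trace = ((U.trace : S) : L) := by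
    rw [hγ', Matrix.trace_units_conj]
    simp [Matrix.trace_fin_two]
  have hmap : (γ : Matrix (Fin 2) (Fin 2) L).map σ = γ := congrArg Units.val hγ
  refine ⟨-U.det, U.trace, ?_, ?_, ?_, rfl, rfl, ?_⟩
  · refine Subtype.ext ?_
    rw [A.coe_aut, NegMemClass.coe_neg, map_neg, ← hdet, RingEquiv.map_det]
    exact congrArg (fun M : Matrix (Fin 2) (Fin 2) L => -M.det) hmap
  · refine Subtype.ext ?_
    rw [A.coe_aut, ← htr]
    conv_rhs => rw [← hmap]
    simp [Matrix.trace_fin_two]
  · exact ((Matrix.isUnit_iff_isUnit_det U).mp u.isUnit).neg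
  · rw [NegMemClass.coe_neg, ← hdet, ← htr]
    exact mul_self_eq_fin_two _

/-- **Local matching, abstract form.** -/
theorem twistedFixed_eq_of_root (A : LevelAut σ S J n)
    {a b : S} {γ : (Matrix (Fin 2) (Fin 2) L)ˣ} (hγ : glMap σ γ = γ)
    (ha : A.aut a = a) (hb : A.aut b = b)
    (hsq : (γ : Matrix (Fin 2) (Fin 2) L) * γ =
      (a : L) • 1 + (b : L) • (γ : Matrix (Fin 2) (Fin 2) L))
    {z : QuadraticAlgebra S a b} (hz : IsUnit z)
    (hnorm : autNorm (quadAut A.aut ha hb) n z = QuadraticAlgebra.omega)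
    {e : Sˣ} (he : z.re + z.im - (e : S) ∈ J)
    (hnormal : ∀ g : (Matrix (Fin 2) (Fin 2) L)ˣ, γ • (g : LevelCosets S J) = g →
      ∃ u ∈ congrLevel J, γ * g = g * coeUnit S u) :
    twistedNorm (glMap σ) (orderUnit hsq hz) n = γ ∧
      {x | twistedMap (orderUnit hsq hz) A.act x = x} = {x | A.act x = x ∧ γ • x = x} := by
  have hN : twistedNorm (glMap σ) (orderUnit hsq hz) n = γ := by
    refine Units.ext ?_
    rw [coe_twistedNorm_orderUnit A hsq hγ ha hb hz n, hnorm, orderHom_apply]
    simp
  refine ⟨hN, twistedFixed_eq (γ := γ) (n := n) (fun x => ?_) ?_⟩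
  · rw [twistedMap_iterate _ (glMap σ) _ A.act_smul, A.act_iterate, hN]
  · intro x
    induction x using QuotientGroup.induction_on with
    | _ g =>
      intro hx
      obtain ⟨u, hu, hconj⟩ := hnormal g hx
      refine root_smul_eq hconj hu ?_ hz ?_ he
      · have hm : (γ : Matrix (Fin 2) (Fin 2) L) * g =
            g * (u : Matrix (Fin 2) (Fin 2) S).map S.subtype := congrArg Units.val hconj
        have h : (g : Matrix (Fin 2) (Fin 2) L) *
            ((u : Matrix (Fin 2) (Fin 2) S) * u).map S.subtype =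
            g * (a • (1 : Matrix (Fin 2) (Fin 2) S) +
              b • (u : Matrix (Fin 2) (Fin 2) S)).map S.subtype := by
          rw [Matrix.map_mul, ← mul_assoc, ← hm, mul_assoc, ← hm, ← mul_assoc, hsq,
            Matrix.map_add (hf := fun x y => map_add S.subtype x y),
            Matrix.map_smul' (hf := fun x y => map_mul S.subtype x y),
            Matrix.map_smul' (hf := fun x y => map_mul S.subtype x y),
            Matrix.map_one (f := S.subtype) (map_zero _) (map_one _), add_mul, smul_mul_assoc,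
            smul_mul_assoc, hm, one_mul, mul_add, mul_smul_comm, mul_smul_comm, mul_one]
          rfl
        exact Matrix.map_injective Subtype.val_injective (g.isUnit.mul_left_cancel h)
      · rw [orderUnit, IsUnit.unit_spec, orderHom_apply]

end Fermat.Agent.LT.Matching
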