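import Fermat.Agent.LT.Matching.FiniteNorm
import Mathlib.RingTheory.Henselian

/-!
# Norm preimages in complete quadratic orders

Unramified case: every fixed unit of `S[γ]` is a norm from `S[γ]`. Tame case: a residually
unipotent `γ` has an `n`-th root in `S[γ]`.
-/

set_option autoImplicit false

namespace Fermat.Agent.LT.Matching

open QuadraticAlgebra Fermat.Agent.CubicDescent Finset Polynomial

variable {S : Type*} [CommRing S]

/-- The residual hypotheses of the unramified case: `σ` has exact order `n` on the finite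
residue field of `(S, t)`. -/
structure UnramifiedDatum (σ : S ≃+* S) (n : ℕ) (t : S) (k : Type*) [Field k] [Finite k] where
  /-- The residue map. -/
  res : S →+* k
  /-- The induced automorphism of the residue field. -/
  resAut : k ≃+* k
  res_comm : ∀ x, res (σ x) = resAut (res x)
  res_surjective : Function.Surjective res
  dvd_iff : ∀ x, res x = 0 ↔ t ∣ x
  pos : 0 < n
  aut_pow : σ ^ n = 1
  resAut_injective : Function.Injective fun i : Fin n => (resAut ^ (i : ℕ) : k ≃+* k)
  aut_t : σ t = t
  regular : IsLeftRegular t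

variable {σ : S ≃+* S} {n : ℕ} {t : S} {k : Type*} [Field k] [Finite k]

theorem UnramifiedDatum.resAut_pow (D : UnramifiedDatum σ n t k) : D.resAut ^ n = 1 := by
  refine RingEquiv.ext fun y => ?_
  obtain ⟨x, rfl⟩ := D.res_surjective y
  rw [← map_aut_pow D.res D.res_comm, D.aut_pow]
  rfl

theorem map_autTrace {S' : Type*} [CommRing S'] {σ : S ≃+* S} {τ : S' ≃+* S'} (f : S →+* S')
    (h : ∀ x, f (σ x) = τ (f x)) (n : ℕ) (u : S) : f (autTrace σ n u) = autTrace τ n (f u) := by
  simp only [autTrace, map_sum, map_aut_pow f h]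

/-- An element of exact trace one. -/
theorem UnramifiedDatum.exists_trace_one [IsAdicComplete (Ideal.span {t}) S]
    (D : UnramifiedDatum σ n t k) : ∃ s, autTrace σ n s = 1 := by
  obtain ⟨x, hx⟩ := exists_autTrace_eq_one D.resAut D.pos D.resAut_injective D.resAut_pow
  obtain ⟨s, rfl⟩ := D.res_surjective x
  obtain ⟨z, hz⟩ := (D.dvd_iff (autTrace σ n s - 1)).mp (by
    rw [map_sub, map_one, map_autTrace D.res D.res_comm, hx, sub_self])
  have hJ : t ∈ Ideal.jacobson (⊥ : Ideal S) :=
    IsAdicComplete.le_jacobson_bot (Ideal.span {t}) (Ideal.mem_span_singleton_self t)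
  have hu : IsUnit (t * z + 1) := Ideal.mem_jacobson_bot.mp hJ z
  rw [show t * z + 1 = autTrace σ n s by linear_combination -hz] at hu
  obtain ⟨w, hw⟩ := hu.exists_left_inv
  have hfix : σ w = w := by
    have h : σ w * autTrace σ n s = 1 := by
      simpa [map_mul, apply_autTrace D.aut_pow] using congrArg σ hw
    exact hu.mul_right_cancel (h.trans hw.symm)
  exact ⟨w * s, by rw [autTrace_fixed_mul hfix, hw]⟩

/-- Unramified case: fixed units of the quadratic order are norms from it. -/
theorem UnramifiedDatum.exists_norm [IsAdicComplete (Ideal.span {t}) S]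
    (D : UnramifiedDatum σ n t k) {a b : S} (ha : σ a = a) (hb : σ b = b)
    {r : QuadraticAlgebra S a b} (hr : quadAut σ ha hb r = r) (hru : IsUnit r) :
    ∃ u, IsUnit u ∧ autNorm (quadAut σ ha hb) n u = r := by
  set T := quadAut σ ha hb with hT
  have := isAdicComplete_quad (S := S) (a := a) (b := b) (t := t)
  have hTt : T (algebraMap S _ t) = algebraMap S _ t := by
    ext <;> simp [hT, QuadraticAlgebra.algebraMap_eq, D.aut_t]
  have ha' : D.resAut (D.res a) = D.res a := by rw [← D.res_comm, ha]
  have hb' : D.resAut (D.res b) = D.res b := by rw [← D.res_comm, hb]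
  let π : QuadraticAlgebra S a b →+* QuadraticAlgebra k (D.res a) (D.res b) :=
    quadMap D.res rfl rfl
  have hπ : ∀ z, π (T z) = quadAut D.resAut ha' hb' (π z) := fun z => by
    ext <;> simp [π, hT, D.res_comm]
  have hπ0 : ∀ z, π z = 0 → algebraMap S _ t ∣ z := fun z hz =>
    (algebraMap_dvd_quad_iff t z).mpr
      ⟨(D.dvd_iff _).mp (by simpa [π] using congrArg QuadraticAlgebra.re hz),
        (D.dvd_iff _).mp (by simpa [π] using congrArg QuadraticAlgebra.im hz)⟩
  obtain ⟨u, hu⟩ := exists_autNorm_eq (σ := T) (n := n) (quadAut_pow_eq_one σ ha hb D.aut_pow) hTt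
    (isLeftRegular_algebraMap D.regular)
    (fun r hr => by
      obtain ⟨s, hs⟩ := D.exists_trace_one
      refine ⟨r * algebraMap S _ s, 0, ?_⟩
      rw [autTrace_fixed_mul hr, ← map_autTrace (σ := σ) (τ := T) (algebraMap S (QuadraticAlgebra S a b))
        (fun x => QuadraticAlgebra.ext rfl (map_zero σ).symm) n s, hs, map_one, mul_one, sub_self,
        mul_zero])
    (fun r hr hru => by
      obtain ⟨w, hw⟩ := exists_autNorm_quad_finite D.resAut D.pos D.resAut_injective D.resAut_pow
        ha' hb' (r := π r) (by rw [← hπ, hr]) (hru.map π)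
      obtain ⟨v, rfl⟩ := quadMap_surjective D.res (rfl : _ = D.res a) (rfl : _ = D.res b)
        D.res_surjective w
      exact ⟨v, hπ0 _ (by rw [map_sub, map_autNorm π hπ, ← hw, sub_self])⟩)
    hr hru
  refine ⟨u, ?_, hu⟩
  rw [← hu] at hru
  unfold autNorm at hru
  obtain ⟨m, hm⟩ : ∃ m, n = m + 1 := ⟨n - 1, by have := D.pos; omega⟩
  subst hm
  rw [prod_range_succ'] at hru
  exact (IsUnit.mul_iff.mp hru).2

/-- Tame case: a residually unipotent element has an `n`-th root, congruent to the expected one. -/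
theorem exists_root_omega [IsAdicComplete (Ideal.span {t}) S] {a b : S}
    (ha : t ∣ a + 1) (hb : t ∣ b - 2) {n : ℕ} (hn : 0 < n) (w : S) (hw : (n : S) * w = 1) :
    ∃ u : QuadraticAlgebra S a b, IsUnit u ∧ u ^ n = ω ∧ t ∣ u.re + u.im - 1 := by
  have := isAdicComplete_quad (S := S) (a := a) (b := b) (t := t)
  set I := Ideal.span {algebraMap S (QuadraticAlgebra S a b) t} with hI
  let N : QuadraticAlgebra S a b := ω - 1
  have hN : N * N ∈ I := by
    rw [hI, Ideal.mem_span_singleton, algebraMap_dvd_quad_iff]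
    obtain ⟨p, hp⟩ := ha
    obtain ⟨q, hq⟩ := hb
    exact ⟨⟨p, by simp [N]; linear_combination hp⟩, ⟨q, by simp [N]; linear_combination hq⟩⟩
  have hu0 : IsUnit (ω : QuadraticAlgebra S a b) := by
    refine isUnit_omega ?_
    obtain ⟨p, hp⟩ := ha
    have hJ : t ∈ Ideal.jacobson (⊥ : Ideal S) :=
      IsAdicComplete.le_jacobson_bot (Ideal.span {t}) (Ideal.mem_span_singleton_self t)
    have h := (Ideal.mem_jacobson_bot.mp hJ (-p)).neg
    rwa [show -(t * -p + 1) = a by linear_combination -hp] at h
  let u₀ : QuadraticAlgebra S a b := 1 + algebraMap S _ w * N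
  have hpow : ∀ j : ℕ, Ideal.Quotient.mk I (u₀ ^ j) =
      Ideal.Quotient.mk I (1 + (j : QuadraticAlgebra S a b) * algebraMap S _ w * N) := by
    intro j
    induction j with
    | zero => simp
    | succ j ih =>
      rw [pow_succ, map_mul, ih, ← map_mul, Ideal.Quotient.eq]
      have h : (1 + (j : QuadraticAlgebra S a b) * algebraMap S _ w * N) * u₀ -
          (1 + ((j + 1 : ℕ) : QuadraticAlgebra S a b) * algebraMap S _ w * N) =
          (j : QuadraticAlgebra S a b) * algebraMap S _ w * algebraMap S _ w * (N * N) := by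
        simp only [u₀, Nat.cast_add, Nat.cast_one]; ring
      rw [h]
      exact I.mul_mem_left _ hN
  have hwn : (n : QuadraticAlgebra S a b) * algebraMap S _ w = 1 := by
    rw [← map_natCast (algebraMap S (QuadraticAlgebra S a b)), ← map_mul, hw, map_one]
  have hω : Ideal.Quotient.mk I (u₀ ^ n) = Ideal.Quotient.mk I ω := by
    rw [hpow, hwn, one_mul]
    simp [N]
  obtain ⟨u, hu, hu'⟩ := HenselianRing.is_henselian (I := I) (X ^ n - C ω)
    (monic_X_pow_sub_C _ hn.ne') u₀ (by
      rw [eval_sub, eval_pow, eval_X, eval_C]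
      exact Ideal.Quotient.eq.mp hω) (by
      rw [derivative_sub, derivative_C, sub_zero, derivative_X_pow, eval_mul, eval_C, eval_pow,
        eval_X, map_mul]
      refine IsUnit.mul ((IsUnit.of_mul_eq_one _ hwn).map _) ?_
      rw [map_pow]
      refine IsUnit.pow _ ?_
      have h : IsUnit (Ideal.Quotient.mk I u₀ ^ n) := by
        rw [← map_pow, hω]
        exact hu0.map _
      exact (isUnit_pow_iff hn.ne').mp h)
  have hun : u ^ n = ω := by
    simpa [IsRoot.def, sub_eq_zero] using hu
  refine ⟨u, (isUnit_pow_iff hn.ne').mp (hun ▸ hu0), hun, ?_⟩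
  rw [hI, Ideal.mem_span_singleton, algebraMap_dvd_quad_iff] at hu'
  obtain ⟨⟨p, hp⟩, ⟨q, hq⟩⟩ := hu'
  refine ⟨p + q, ?_⟩
  simp only [re_sub, im_sub, u₀, re_add, im_add, N, re_mul, im_mul, re_one, im_one, algebraMap_re,
    algebraMap_im, omega_re, omega_im] at hp hq
  linear_combination hp + hq

end Fermat.Agent.LT.Matching
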