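import Fermat.Agent.CubicDescent.NormLift
import Mathlib.Algebra.QuadraticAlgebra.Basic

/-!
# Automorphisms of quadratic orders

The quadratic algebra `S[X]/(X² - bX - a)` over a complete ring: it is again complete, and an
automorphism of `S` fixing `a` and `b` acts on it coefficientwise.
-/

set_option autoImplicit false

namespace Fermat.Agent.LT.Matching

open QuadraticAlgebra Fermat.Agent.CubicDescent Finset

variable {S S' : Type*} [CommRing S] [CommRing S']

/-- The coefficientwise extension of a ring map. -/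
def quadMap (f : S →+* S') {a b : S} {a' b' : S'} (ha : f a = a') (hb : f b = b') :
    QuadraticAlgebra S a b →+* QuadraticAlgebra S' a' b' where
  toFun z := ⟨f z.re, f z.im⟩
  map_one' := by ext <;> simp
  map_mul' z w := by ext <;> simp [← ha, ← hb]
  map_zero' := by ext <;> simp
  map_add' z w := by ext <;> simp

@[simp] theorem re_quadMap (f : S →+* S') {a b : S} {a' b' : S'} (ha : f a = a') (hb : f b = b')
    (z : QuadraticAlgebra S a b) : (quadMap f ha hb z).re = f z.re := rfl

@[simp] theorem im_quadMap (f : S →+* S') {a b : S} {a' b' : S'} (ha : f a = a') (hb : f b = b')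
    (z : QuadraticAlgebra S a b) : (quadMap f ha hb z).im = f z.im := rfl

/-- A surjection induces a surjection of quadratic algebras. -/
theorem quadMap_surjective (f : S →+* S') {a b : S} {a' b' : S'} (ha : f a = a') (hb : f b = b')
    (hf : Function.Surjective f) : Function.Surjective (quadMap f ha hb) := by
  intro w
  obtain ⟨x, hx⟩ := hf w.re
  obtain ⟨y, hy⟩ := hf w.im
  exact ⟨⟨x, y⟩, by ext <;> simp [hx, hy]⟩

/-- The coefficientwise automorphism. -/
def quadAut (σ : S ≃+* S) {a b : S} (ha : σ a = a) (hb : σ b = b) :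
    QuadraticAlgebra S a b ≃+* QuadraticAlgebra S a b :=
  RingEquiv.ofRingHom (quadMap σ.toRingHom ha hb)
    (quadMap σ.symm.toRingHom (σ.injective (by simp [ha])) (σ.injective (by simp [hb])))
    (by ext z <;> simp) (by ext z <;> simp)

/-- `quadAut` acts on the first coordinate. -/
@[simp] theorem re_quadAut (σ : S ≃+* S) {a b : S} (ha : σ a = a) (hb : σ b = b)
    (z : QuadraticAlgebra S a b) : (quadAut σ ha hb z).re = σ z.re := rfl

/-- `quadAut` acts on the second coordinate. -/
@[simp] theorem im_quadAut (σ : S ≃+* S) {a b : S} (ha : σ a = a) (hb : σ b = b)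
    (z : QuadraticAlgebra S a b) : (quadAut σ ha hb z).im = σ z.im := rfl

theorem quadAut_pow (σ : S ≃+* S) {a b : S} (ha : σ a = a) (hb : σ b = b)
    (z : QuadraticAlgebra S a b) (i : ℕ) :
    ((quadAut σ ha hb ^ i) z).re = (σ ^ i) z.re ∧ ((quadAut σ ha hb ^ i) z).im = (σ ^ i) z.im := by
  induction i with
  | zero => exact ⟨rfl, rfl⟩
  | succ i ih =>
    rw [pow_succ', pow_succ', RingAut.mul_apply, RingAut.mul_apply, re_quadAut, im_quadAut, ih.1,
      ih.2]
    exact ⟨rfl, rfl⟩

/-- `quadAut` has the order of the automorphism of the base. -/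
theorem quadAut_pow_eq_one (σ : S ≃+* S) {a b : S} (ha : σ a = a) (hb : σ b = b) {n : ℕ}
    (hσ : σ ^ n = 1) : quadAut σ ha hb ^ n = 1 := by
  refine RingEquiv.ext fun z => QuadraticAlgebra.ext ?_ ?_
  · rw [(quadAut_pow σ ha hb z n).1, hσ]; rfl
  · rw [(quadAut_pow σ ha hb z n).2, hσ]; rfl

/-- A map intertwining two automorphisms intertwines their powers. -/
theorem map_aut_pow {σ : S ≃+* S} {τ : S' ≃+* S'} (f : S →+* S') (h : ∀ x, f (σ x) = τ (f x))
    (u : S) : ∀ i : ℕ, f ((σ ^ i) u) = (τ ^ i) (f u)
  | 0 => rfl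
  | i + 1 => by
    rw [pow_succ', pow_succ', RingAut.mul_apply, RingAut.mul_apply, h, map_aut_pow f h u i]

/-- An equivariant map commutes with the norm. -/
theorem map_autNorm {σ : S ≃+* S} {τ : S' ≃+* S'} (f : S →+* S') (h : ∀ x, f (σ x) = τ (f x))
    (n : ℕ) (u : S) : f (autNorm σ n u) = autNorm τ n (f u) := by
  simp only [autNorm, map_prod, map_aut_pow f h]

/-- Divisibility by a scalar is tested on the two coordinates. -/
theorem algebraMap_dvd_quad_iff {a b : S} (r : S) (z : QuadraticAlgebra S a b) :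
    algebraMap S (QuadraticAlgebra S a b) r ∣ z ↔ r ∣ z.re ∧ r ∣ z.im :=
  algebraMap_dvd_iff

/-- Regular scalars stay regular in the quadratic algebra. -/
theorem isLeftRegular_algebraMap {a b : S} {t : S} (ht : IsLeftRegular t) :
    IsLeftRegular (algebraMap S (QuadraticAlgebra S a b) t) := by
  intro z w h
  have h1 := congrArg QuadraticAlgebra.re h
  have h2 := congrArg QuadraticAlgebra.im h
  simp only [← Algebra.smul_def, re_smul, im_smul, smul_eq_mul] at h1 h2
  exact QuadraticAlgebra.ext (ht h1) (ht h2)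

/-- A quadratic algebra over a `t`-adically complete ring is `t`-adically complete. -/
theorem isAdicComplete_quad {a b t : S} [IsAdicComplete (Ideal.span {t}) S] :
    IsAdicComplete (Ideal.span {algebraMap S (QuadraticAlgebra S a b) t})
      (QuadraticAlgebra S a b) := by
  have key : ∀ (m : ℕ) (z : QuadraticAlgebra S a b),
      z ∈ (Ideal.span {algebraMap S (QuadraticAlgebra S a b) t} ^ m • ⊤ :
        Submodule (QuadraticAlgebra S a b) (QuadraticAlgebra S a b)) ↔
      z.re ∈ (Ideal.span {t} ^ m • ⊤ : Submodule S S) ∧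
        z.im ∈ (Ideal.span {t} ^ m • ⊤ : Submodule S S) := by
    intro m z
    simp only [smul_eq_mul, Ideal.mul_top, Ideal.span_singleton_pow, Ideal.mem_span_singleton,
      ← map_pow, algebraMap_dvd_quad_iff]
  refine { haus' := fun z hz => ?_, prec' := fun f hf => ?_ }
  · have h : ∀ m : ℕ, z.re ∈ (Ideal.span {t} ^ m • ⊤ : Submodule S S) ∧
        z.im ∈ (Ideal.span {t} ^ m • ⊤ : Submodule S S) := fun m =>
      (key m z).mp (SModEq.zero.mp (hz m))
    exact QuadraticAlgebra.ext
      (IsHausdorff.haus (I := Ideal.span {t}) (M := S) inferInstance _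
        fun m => SModEq.zero.mpr (h m).1)
      (IsHausdorff.haus (I := Ideal.span {t}) (M := S) inferInstance _
        fun m => SModEq.zero.mpr (h m).2)
  · have h : ∀ {k l : ℕ}, k ≤ l → _ := fun {k l} hkl =>
      (key k (f k - f l)).mp (SModEq.sub_mem.mp (hf hkl))
    obtain ⟨x, hx⟩ := IsPrecomplete.prec (I := Ideal.span {t}) (M := S) inferInstance
      (f := fun k => (f k).re) (fun {k l} hkl => SModEq.sub_mem.mpr (h hkl).1)
    obtain ⟨y, hy⟩ := IsPrecomplete.prec (I := Ideal.span {t}) (M := S) inferInstance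
      (f := fun k => (f k).im) (fun {k l} hkl => SModEq.sub_mem.mpr (h hkl).2)
    exact ⟨⟨x, y⟩, fun m => SModEq.sub_mem.mpr ((key m _).mpr
      ⟨SModEq.sub_mem.mp (hx m), SModEq.sub_mem.mp (hy m)⟩)⟩

/-- `ω` is a unit when `a` is. -/
theorem isUnit_omega {a b : S} (ha : IsUnit a) : IsUnit (ω : QuadraticAlgebra S a b) := by
  rw [isUnit_iff_norm_isUnit]
  simpa [norm_def] using ha

end Fermat.Agent.LT.Matching
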