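import Fermat.Agent.LT.Matching.Unramified
import Mathlib.Algebra.Ring.GeomSum

/-!
# Local matching at tame totally ramified places

At a tame totally ramified place we use the first congruence subgroup: an element congruent to a
rational scalar has an `n`-th root in its order, and `σ`-fixed cosets of the first congruence
subgroup come from `PGL₂(K)`.
-/

set_option autoImplicit false

namespace Fermat.Agent.LT.Matching

open Fermat.Agent.CubicDescent Matrix Finset

variable {L : Type*} [Field L] {σ : L ≃+* L} {S : Subring L} {n : ℕ} {ϖ : S}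

/-- The hypotheses of the tame totally ramified case. -/
structure TameDatum (σ : L ≃+* L) (S : Subring L) (τ : S ≃+* S) (n : ℕ) (ϖ : S) : Prop where
  odd : Odd n
  isUnit_n : IsUnit (n : S)
  residue_fixed : ∀ x : S, ϖ ∣ τ x - x
  orbit : ∀ m : ℤ, (∃ z : S, σ ((ϖ : L) ^ m) = (ϖ : L) ^ m * (1 + (ϖ : L) * (z : L))) → (n : ℤ) ∣ m

theorem TameDatum.pow_residue_fixed {τ : S ≃+* S} (D : TameDatum σ S τ n ϖ) (x : S) (i : ℕ) :
    ϖ ∣ (τ ^ i) x - x := by
  induction i with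
  | zero => simp
  | succ i ih =>
    rw [pow_succ', RingAut.mul_apply, show τ ((τ ^ i) x) - x =
      (τ ((τ ^ i) x) - (τ ^ i) x) + ((τ ^ i) x - x) by ring]
    exact dvd_add (D.residue_fixed _) ih

/-- Every integer is congruent to a fixed one. -/
theorem TameDatum.exists_fixed {τ : S ≃+* S} (D : TameDatum σ S τ n ϖ) (hτ : τ ^ n = 1) (x : S) :
    ∃ y : S, τ y = y ∧ ϖ ∣ y - x := by
  obtain ⟨w, hw⟩ := D.isUnit_n.exists_left_inv
  have hwfix : τ w = w := by
    have h : τ w * (n : S) = 1 := by simpa using congrArg τ hw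
    exact D.isUnit_n.mul_right_cancel (h.trans hw.symm)
  refine ⟨w * autTrace τ n x, by rw [map_mul, hwfix, apply_autTrace hτ], ?_⟩
  have h : w * autTrace τ n x - x = w * ∑ i ∈ range n, ((τ ^ i) x - x) := by
    rw [sum_sub_distrib, sum_const, card_range, nsmul_eq_mul, autTrace]
    linear_combination x * hw
  rw [h]
  exact Dvd.dvd.mul_left (dvd_sum fun i _ => D.pow_residue_fixed x i) w

/-- An element congruent to a unit is a unit. -/
theorem Uniformizer.isUnit_of_dvd_sub (h : Uniformizer S ϖ) {x y : S} (hy : IsUnit y)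
    (hxy : ϖ ∣ x - y) : IsUnit x := by
  refine (h.dvd_or_isUnit x).resolve_left fun hd => h.not_isUnit ?_
  have h2 : ϖ ∣ y := by simpa using dvd_sub hd hxy
  exact isUnit_of_dvd_unit h2 hy

/-- Every unit is congruent to a fixed unit. -/
theorem TameDatum.exists_fixed_unit {τ : S ≃+* S} (D : TameDatum σ S τ n ϖ)
    (h : Uniformizer S ϖ) (hτ : τ ^ n = 1) (v : Sˣ) :
    ∃ v₀ : Sˣ, τ v₀ = v₀ ∧ ϖ ∣ (v₀ : S) - v := by
  obtain ⟨y, hy, hd⟩ := D.exists_fixed hτ v
  exact ⟨(h.isUnit_of_dvd_sub v.isUnit hd).unit, hy, hd⟩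

/-- Multiples of `n` are valuations of fixed elements. -/
theorem TameDatum.exists_fixed_pow {J : Ideal S} (A : LevelAut σ S J n)
    (h : Uniformizer S ϖ) {m : ℤ} (hm : (n : ℤ) ∣ m) :
    ∃ (f : Lˣ) (v : Sˣ), σ (f : L) = f ∧ (ϖ : L) ^ m = (f : L) * ((v : S) : L) := by
  obtain ⟨j, rfl⟩ := hm
  have hdvd : ∀ e : S ≃+* S, ϖ ∣ e ϖ := fun e =>
    (h.dvd_or_isUnit (e ϖ)).resolve_right fun hu =>
      h.not_isUnit (by simpa using hu.map e.symm)
  have hassoc : ∀ i : ℕ, Associated ((A.aut ^ i) ϖ) ϖ := fun i => by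
    refine associated_of_dvd_dvd ?_ (hdvd _)
    simpa using map_dvd (A.aut ^ i) (hdvd (A.aut ^ i).symm)
  obtain ⟨V, hV⟩ : Associated (autNorm A.aut n ϖ) (ϖ ^ n) := by
    have := Associated.prod (range n) (fun i => (A.aut ^ i) ϖ) (fun _ => ϖ) (fun i _ => hassoc i)
    simpa [autNorm] using this
  set N : L := ((autNorm A.aut n ϖ : S) : L) with hN
  have hNV : N * ((V : S) : L) = (ϖ : L) ^ n := by
    have := congrArg Subtype.val hV
    simpa [hN] using this
  have hN0 : N ≠ 0 := fun h0 => pow_ne_zero n h.ne_zero (by rw [← hNV, h0, zero_mul])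
  refine ⟨Units.mk0 (N ^ j) (zpow_ne_zero j hN0), V ^ j, ?_, ?_⟩
  · show σ (N ^ j) = N ^ j
    rw [map_zpow₀, hN, ← A.coe_aut, apply_autNorm A.aut_pow_eq]
  · show (ϖ : L) ^ ((n : ℤ) * j) = N ^ j * _
    rw [zpow_mul, zpow_natCast, ← hNV, mul_zpow]
    congr 1
    exact ((congrArg Units.val (map_zpow (Units.map S.subtype.toMonoidHom) V j)).trans
      (Units.val_zpow_eq_zpow_val _ j)).symm

/-- Determinant and trace of an element of the first congruence subgroup. -/
theorem dvd_det_trace_of_mem {u : (Matrix (Fin 2) (Fin 2) S)ˣ}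
    (hu : u ∈ congrLevel (Ideal.span {ϖ})) :
    ϖ ∣ (u : Matrix (Fin 2) (Fin 2) S).det - 1 ∧
      ϖ ∣ (u : Matrix (Fin 2) (Fin 2) S).trace - 2 := by
  simp only [mem_congrLevel, Ideal.mem_span_singleton] at hu
  obtain ⟨p, hp⟩ := hu 0 0
  obtain ⟨q, hq⟩ := hu 0 1
  obtain ⟨r, hr⟩ := hu 1 0
  obtain ⟨s, hs⟩ := hu 1 1
  simp only [one_apply_eq, one_apply_ne (show (0 : Fin 2) ≠ 1 by decide),
    one_apply_ne (show (1 : Fin 2) ≠ 0 by decide), sub_zero] at hp hq hr hs
  refine ⟨⟨p + s + ϖ * (p * s - q * r), ?_⟩, ⟨p + s, ?_⟩⟩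
  · rw [Matrix.det_fin_two]
    linear_combination hp * (u : Matrix (Fin 2) (Fin 2) S) 1 1 + hs + ϖ * p * hs -
      hq * (u : Matrix (Fin 2) (Fin 2) S) 1 0 - ϖ * q * hr
  · rw [Matrix.trace_fin_two]
    linear_combination hp + hs

/-- The congruence subgroup absorbs scalars congruent to one. -/
theorem scalar_mul_mem_congrLevel {u : (Matrix (Fin 2) (Fin 2) S)ˣ}
    (hu : u ∈ congrLevel (Ideal.span {ϖ})) {v : Sˣ} (hv : ϖ ∣ (v : S) - 1) :
    Units.map (Matrix.scalar (Fin 2)).toMonoidHom v * u ∈ congrLevel (Ideal.span {ϖ}) := by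
  refine mul_mem ?_ hu
  rw [mem_congrLevel]
  intro i j
  rw [Ideal.mem_span_singleton]
  by_cases hij : i = j <;> simp [hij, Matrix.scalar, Matrix.one_apply, hv]

/-- An `n`-th root in the quadratic order is determined by its residue, for `n` a unit. -/
theorem root_unique [IsAdicComplete (Ideal.span {ϖ}) S] {a b : S} (hn : IsUnit (n : S))
    {u v : QuadraticAlgebra S a b} (hu : IsUnit u) (hpow : u ^ n = v ^ n)
    (hcong : algebraMap S (QuadraticAlgebra S a b) ϖ ∣ u - v) : u = v := by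
  have := isAdicComplete_quad (S := S) (a := a) (b := b) (t := ϖ)
  set t := algebraMap S (QuadraticAlgebra S a b) ϖ
  set Sg := ∑ i ∈ range n, u ^ i * v ^ (n - 1 - i)
  have hdvd : t ∣ Sg - (n : QuadraticAlgebra S a b) * u ^ (n - 1) := by
    have h : Sg - (n : QuadraticAlgebra S a b) * u ^ (n - 1) =
        ∑ i ∈ range n, (u ^ i * v ^ (n - 1 - i) - u ^ (n - 1)) := by
      rw [sum_sub_distrib, sum_const, card_range, nsmul_eq_mul]
    rw [h]
    refine dvd_sum fun i hi => ?_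
    have : u ^ (n - 1) = u ^ i * u ^ (n - 1 - i) := by
      rw [← pow_add]; congr 1; have := mem_range.mp hi; omega
    rw [this, ← mul_sub]
    refine Dvd.dvd.mul_left ?_ _
    rw [← neg_sub]
    exact dvd_neg.mpr (hcong.trans (sub_dvd_pow_sub_pow u v _))
  have hne : IsUnit ((n : QuadraticAlgebra S a b) * u ^ (n - 1)) := by
    refine IsUnit.mul ?_ (hu.pow _)
    simpa using hn.map (algebraMap S (QuadraticAlgebra S a b))
  obtain ⟨e, he⟩ := hdvd
  obtain ⟨c, hc⟩ := hne.exists_left_inv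
  have hSg : IsUnit Sg := by
    have hJ : t ∈ Ideal.jacobson (⊥ : Ideal (QuadraticAlgebra S a b)) :=
      IsAdicComplete.le_jacobson_bot (Ideal.span {t}) (Ideal.mem_span_singleton_self t)
    have h2 : IsUnit (c * Sg) := by
      rw [show c * Sg = t * (e * c) + 1 by linear_combination c * he + hc]
      exact Ideal.mem_jacobson_bot.mp hJ _
    exact (IsUnit.mul_iff.mp h2).2
  have h0 : Sg * (u - v) = 0 := by rw [geom_sum₂_mul, hpow, sub_self]
  exact sub_eq_zero.mp (hSg.mul_right_eq_zero.mp h0)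

/-- The valuation of the scalar part of a `σ`-fixed element fixing a coset is a multiple of `n`. -/
theorem TameDatum.dvd_of_fixed_conj (A : LevelAut σ S (Ideal.span {ϖ}) n)
    (D : TameDatum σ S A.aut n ϖ) {γ g : (Matrix (Fin 2) (Fin 2) L)ˣ} (hγ : glMap σ γ = γ)
    {c : Lˣ} {u : (Matrix (Fin 2) (Fin 2) S)ˣ}
    (hu : g⁻¹ * γ * g = scalarUnit c * coeUnit S u) {m : ℤ} {w : Sˣ}
    (hw : (c : L) = (ϖ : L) ^ m * ((w : S) : L)) : (n : ℤ) ∣ m := by
  have hdet := congrArg (fun M : (Matrix (Fin 2) (Fin 2) L)ˣ =>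
    (M : Matrix (Fin 2) (Fin 2) L).det) hu
  simp only [Units.val_mul, Matrix.det_mul, det_scalarUnit, det_coeUnit] at hdet
  have hg1 : ((g⁻¹ : (Matrix (Fin 2) (Fin 2) L)ˣ) : Matrix (Fin 2) (Fin 2) L).det *
      (g : Matrix (Fin 2) (Fin 2) L).det = 1 := by
    rw [← Matrix.det_mul, Units.inv_mul, Matrix.det_one]
  rw [mul_right_comm, hg1, one_mul, hw] at hdet
  set W : Sˣ := w ^ 2 * ((Matrix.isUnit_iff_isUnit_det _).mp u.isUnit).unit with hW
  have hval : (γ : Matrix (Fin 2) (Fin 2) L).det = (ϖ : L) ^ (2 * m) * ((W : S) : L) := by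
    rw [hdet, hW, mul_comm 2 m, zpow_mul]
    push_cast
    rw [show ((2 : ℤ)) = ((2 : ℕ) : ℤ) from rfl, zpow_natCast]
    rw [show ((((Matrix.isUnit_iff_isUnit_det _).mp u.isUnit).unit : Sˣ) : S) =
      (u : Matrix (Fin 2) (Fin 2) S).det from rfl]
    ring
  have hfix : σ (γ : Matrix (Fin 2) (Fin 2) L).det = (γ : Matrix (Fin 2) (Fin 2) L).det := by
    rw [RingEquiv.map_det]
    exact congrArg (fun M : (Matrix (Fin 2) (Fin 2) L)ˣ =>
      (M : Matrix (Fin 2) (Fin 2) L).det) hγ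
  rw [hval, map_mul, ← A.coe_aut] at hfix
  obtain ⟨z, hz⟩ := D.residue_fixed (W : S)
  obtain ⟨W', hW'⟩ := (W.isUnit.map A.aut).exists_left_inv
  have h2 := D.orbit (2 * m) ⟨-(z * W'), by
    have hz' : ((A.aut W : S) : L) - ((W : S) : L) = (ϖ : L) * (z : L) :=
      congrArg Subtype.val hz
    have hW'' : (W' : L) * ((A.aut W : S) : L) = 1 := congrArg Subtype.val hW'
    push_cast
    linear_combination (W' : L) * hfix -
      σ ((ϖ : L) ^ (2 * m)) * hW'' + (ϖ : L) ^ (2 * m) * hW'' -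
      (ϖ : L) ^ (2 * m) * (W' : L) * hz'⟩
  have hcop : IsCoprime (n : ℤ) 2 := by
    rw [show (2 : ℤ) = ((2 : ℕ) : ℤ) from rfl, Nat.isCoprime_iff_coprime,
      Nat.coprime_comm, Nat.prime_two.coprime_iff_not_dvd]
    exact fun hd => Nat.not_even_iff_odd.mpr D.odd (even_iff_two_dvd.mpr hd)
  exact hcop.dvd_of_dvd_mul_left h2

/-- A `σ`-fixed `n`-th root of `ω` congruent to one, in the quadratic order of a characteristic
polynomial congruent to `(X - 1) ^ 2`. -/
theorem TameDatum.exists_fixed_root [IsAdicComplete (Ideal.span {ϖ}) S] {τ : S ≃+* S}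
    (D : TameDatum σ S τ n ϖ) {a b : S} (ha : τ a = a) (hb : τ b = b) (ha1 : ϖ ∣ a + 1)
    (hb2 : ϖ ∣ b - 2) :
    ∃ z : QuadraticAlgebra S a b, IsUnit z ∧
      autNorm (quadAut τ ha hb) n z = QuadraticAlgebra.omega ∧ ϖ ∣ z.re + z.im - 1 := by
  obtain ⟨wn, hwn⟩ := D.isUnit_n.exists_right_inv
  obtain ⟨z, hz, hzn, hzd⟩ := exists_root_omega (t := ϖ) ha1 hb2 D.odd.pos wn hwn
  set T := quadAut τ ha hb with hT
  have hTz : T z = z := by
    refine root_unique (ϖ := ϖ) D.isUnit_n (hz.map T) ?_ ?_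
    · rw [← map_pow, hzn]
      exact QuadraticAlgebra.ext (map_zero _) (map_one _)
    · exact (algebraMap_dvd_quad_iff ϖ _).mpr ⟨D.residue_fixed _, D.residue_fixed _⟩
  refine ⟨z, hz, ?_, hzd⟩
  have hi : ∀ i : ℕ, (T ^ i) z = z := fun i => aut_pow_fixed hTz i
  simp only [autNorm, hi, prod_const, card_range, hzn]

/-- If `γ'` acts on one coset by an element of the congruence subgroup, it does so on every coset
that it fixes. -/
theorem Uniformizer.exists_congrLevel_conj (h : Uniformizer S ϖ)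
    {γ' g g' : (Matrix (Fin 2) (Fin 2) L)ˣ} {u : (Matrix (Fin 2) (Fin 2) S)ˣ}
    (humem : u ∈ congrLevel (Ideal.span {ϖ})) (hconj : γ' * g = g * coeUnit S u)
    (hg' : γ' • (g' : LevelCosets S (Ideal.span {ϖ})) = g') :
    ∃ u' ∈ congrLevel (Ideal.span {ϖ}), γ' * g' = g' * coeUnit S u' := by
  obtain ⟨hd1, ht2⟩ := dvd_det_trace_of_mem humem
  obtain ⟨c₂, u₂, hu₂mem, hu₂⟩ := (smul_mk_eq_iff γ' g').mp hg'
  have hm1 : (γ' : Matrix (Fin 2) (Fin 2) L) =
      (g : Matrix (Fin 2) (Fin 2) L) * (coeUnit S u : Matrix (Fin 2) (Fin 2) L) *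
        (g⁻¹).val := by
    rw [← Units.val_mul, ← hconj, ← Units.val_mul]
    congr 1
    group
  have hm2 : (γ' : Matrix (Fin 2) (Fin 2) L) =
      (g' : Matrix (Fin 2) (Fin 2) L) *
        ((scalarUnit c₂ * coeUnit S u₂ : (Matrix (Fin 2) (Fin 2) L)ˣ) :
          Matrix (Fin 2) (Fin 2) L) * (g'⁻¹).val := by
    rw [← hu₂, ← Units.val_mul, ← Units.val_mul]
    congr 1
    group
  have hD := congrArg Matrix.det hm2
  have hT' := congrArg Matrix.trace hm2
  rw [hm1, Matrix.det_units_conj, Matrix.det_units_conj, Units.val_mul, Matrix.det_mul,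
    det_scalarUnit, det_coeUnit, det_coeUnit] at hD
  rw [hm1, Matrix.trace_units_conj, Matrix.trace_units_conj] at hT'
  set d₁ := ((Matrix.isUnit_iff_isUnit_det _).mp u.isUnit).unit with hd₁def
  set d₂ := ((Matrix.isUnit_iff_isUnit_det _).mp u₂.isUnit).unit with hd₂def
  obtain ⟨v', hv'⟩ := h.exists_unit_of_sq (c := (c₂ : L)) (w := d₁ * d₂⁻¹) (by
    have hd2' : ((d₂ : S) : L) * (((d₂⁻¹ : Sˣ) : S) : L) = 1 := congrArg Subtype.val d₂.mul_inv
    push_cast
    rw [show (((u : Matrix (Fin 2) (Fin 2) S).det : S) : L) = ((d₁ : S) : L) from rfl,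
      show (((u₂ : Matrix (Fin 2) (Fin 2) S).det : S) : L) = ((d₂ : S) : L) from rfl] at hD
    linear_combination (-(((d₂⁻¹ : Sˣ) : S) : L)) * hD - (c₂ : L) ^ 2 * hd2')
  have hDS : (u : Matrix (Fin 2) (Fin 2) S).det =
      (v' : S) ^ 2 * (u₂ : Matrix (Fin 2) (Fin 2) S).det := Subtype.ext (by
    push_cast
    rw [hD, hv'])
  have hTS : (u : Matrix (Fin 2) (Fin 2) S).trace =
      (v' : S) * (u₂ : Matrix (Fin 2) (Fin 2) S).trace := Subtype.ext (by
    push_cast
    rw [hv']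
    simp [Matrix.trace_fin_two, scalarUnit, Matrix.scalar] at hT' ⊢
    linear_combination hT')
  have hv'1 : ϖ ∣ (v' : S) - 1 := by
    refine Ideal.mem_span_singleton.mp (h.isPrime.mem_of_pow_mem 2 ?_)
    rw [Ideal.mem_span_singleton]
    obtain ⟨hd2, ht2'⟩ := dvd_det_trace_of_mem hu₂mem
    obtain ⟨p₁, hp₁⟩ := hd1
    obtain ⟨q₁, hq₁⟩ := ht2
    obtain ⟨p₂, hp₂⟩ := hd2
    obtain ⟨q₂, hq₂⟩ := ht2'
    refine ⟨p₁ - (v' : S) ^ 2 * p₂ - q₁ + (v' : S) * q₂, ?_⟩
    linear_combination hp₁ - (v' : S) ^ 2 * hp₂ - hq₁ + (v' : S) * hq₂ - hDS + hTS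
  refine ⟨_, scalar_mul_mem_congrLevel hu₂mem hv'1, ?_⟩
  rw [map_mul, coeUnit_scalar, show Units.map S.subtype.toMonoidHom v' = c₂ from Units.ext hv',
    ← hu₂]
  group


/-- **Local matching at a tame totally ramified place.** -/
theorem exists_matching_tame [IsAdicComplete (Ideal.span {ϖ}) S]
    (h : Uniformizer S ϖ) (A : LevelAut σ S (Ideal.span {ϖ}) n)
    (D : TameDatum σ S A.aut n ϖ) {γ : (Matrix (Fin 2) (Fin 2) L)ˣ}
    (hγ : glMap σ γ = γ) (hne : ∃ x : LevelCosets S (Ideal.span {ϖ}), γ • x = x) :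
    ∃ (δ₀ : (Matrix (Fin 2) (Fin 2) L)ˣ) (c : Lˣ),
      σ (c : L) = c ∧ twistedNorm (glMap σ) δ₀ n = scalarUnit c * γ ∧
        (∀ y : (Matrix (Fin 2) (Fin 2) L)ˣ, Commute y γ → Commute y δ₀) ∧
        {x | twistedMap δ₀ A.act x = x} = {x | A.act x = x ∧ γ • x = x} := by
  obtain ⟨x, hx⟩ := hne
  induction x using QuotientGroup.induction_on with
  | _ g =>
    obtain ⟨c₁, u₁, hu₁mem, hu₁⟩ := (smul_mk_eq_iff γ g).mp hx
    obtain ⟨m, w, hw⟩ := h.exists_eq (c₁ : L) c₁.ne_zero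
    have hm : (n : ℤ) ∣ m := D.dvd_of_fixed_conj A hγ hu₁ hw
    obtain ⟨f, v, hf, hfv⟩ := TameDatum.exists_fixed_pow A h hm
    obtain ⟨v₀, hv₀, hv₀d⟩ := D.exists_fixed_unit h A.aut_pow_eq (v * w)
    let c : Lˣ := (f * Units.map S.subtype.toMonoidHom v₀)⁻¹
    have hc : σ (c : L) = c := by
      simp only [c, Units.val_inv_eq_inv_val, map_inv₀, Units.val_mul, map_mul, hf, Units.coe_map]
      congr 2
      exact (A.coe_aut (v₀ : S)).symm.trans (congrArg Subtype.val hv₀)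
    have hc₁ : c * c₁ = Units.map S.subtype.toMonoidHom (v * w * v₀⁻¹) := by
      have h1 : c₁ = f * Units.map S.subtype.toMonoidHom (v * w) := by
        ext
        rw [hw, hfv]
        simp [mul_assoc]
      rw [h1, show c = (f * Units.map S.subtype.toMonoidHom v₀)⁻¹ from rfl, map_mul (Units.map _)
        (v * w), map_inv]
      rw [_root_.mul_inv_rev, mul_assoc, inv_mul_cancel_left, mul_comm]
    set γ' := scalarUnit c * γ with hγ'def
    have hγ' : glMap σ γ' = γ' := by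
      rw [map_mul, glMap_scalarUnit, hγ, show Units.map σ.toRingHom.toMonoidHom c = c from
        Units.ext hc]
    set u := Units.map (Matrix.scalar (Fin 2)).toMonoidHom (v * w * v₀⁻¹) * u₁ with hudef
    have humem : u ∈ congrLevel (Ideal.span {ϖ}) := by
      refine scalar_mul_mem_congrLevel hu₁mem ?_
      obtain ⟨e, he⟩ := hv₀d
      refine ⟨-(e * ((v₀⁻¹ : Sˣ) : S)), ?_⟩
      push_cast at he ⊢
      linear_combination (-((v₀⁻¹ : Sˣ) : S)) * he + v₀.mul_inv
    have hconj : γ' * g = g * coeUnit S u := by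
      rw [map_mul, coeUnit_scalar, ← hc₁, map_mul, mul_assoc (scalarUnit c) (scalarUnit c₁), ← hu₁,
        ← mul_assoc g, ← scalarUnit_comm c g, hγ'def]
      group
    obtain ⟨a, b, ha, hb, hau, had, hbt, hsq⟩ := exists_quadratic_relation A hγ' hconj
    obtain ⟨hd1, ht2⟩ := dvd_det_trace_of_mem humem
    obtain ⟨z, hz, hnorm, hzd⟩ := D.exists_fixed_root ha hb
      (by rw [had]; simpa [sub_eq_add_neg, add_comm] using (dvd_neg.mpr hd1))
      (by rw [hbt]; exact ht2)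
    have hnormal := fun g' => h.exists_congrLevel_conj (g' := g') humem hconj
    obtain ⟨hN, hset⟩ := twistedFixed_eq_of_root A hγ' ha hb hsq hz hnorm (e := 1)
      (Ideal.mem_span_singleton.mpr hzd) hnormal
    refine ⟨orderUnit hsq hz, c, hc, hN, fun y hy => commute_orderUnit hsq hz
      ((scalarUnit_commute c y).symm.mul_right hy), ?_⟩
    rw [hset]
    ext x
    simp [hγ'def, mul_smul, scalarUnit_smul]

end Fermat.Agent.LT.Matching
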