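import Fermat.Agent.LT.Matching.Tame

/-!
# Fixed cosets at tame totally ramified places

`σ`-fixed cosets of the first congruence subgroup are rational, and the rational part of the
level group is the rational level group.
-/

set_option autoImplicit false

namespace Fermat.Agent.LT.Matching

open Fermat.Agent.CubicDescent Matrix Finset

variable {L : Type*} [Field L] {σ : L ≃+* L} {S : Subring L} {n : ℕ} {ϖ : S}

theorem conj_mem_levelGroup {J : Ideal S} (k : (Matrix (Fin 2) (Fin 2) S)ˣ)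
    {h : (Matrix (Fin 2) (Fin 2) L)ˣ} (hh : h ∈ levelGroup S J) :
    coeUnit S k * h * (coeUnit S k)⁻¹ ∈ levelGroup S J := by
  obtain ⟨c, u, hu, rfl⟩ := hh
  refine ⟨c, k * u * k⁻¹, (congrLevel_normal J).conj_mem u hu k, ?_⟩
  rw [map_mul, map_mul, map_inv, ← mul_assoc, ← scalarUnit_comm c]
  simp only [mul_assoc]

theorem congr_iff_map_eq {J : Ideal S} {a b : (Matrix (Fin 2) (Fin 2) S)ˣ}
    (h : ∀ i j, (a : Matrix (Fin 2) (Fin 2) S) i j - (b : Matrix (Fin 2) (Fin 2) S) i j ∈ J) :
    a⁻¹ * b ∈ congrLevel J := by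
  rw [congrLevel, MonoidHom.mem_ker, map_mul, map_inv, inv_mul_eq_one]
  ext i j
  simpa [Ideal.Quotient.eq] using h i j

/-- **Fixed cosets are rational (tame case).** -/
theorem fixed_cosets_tame (h : Uniformizer S ϖ) (A : LevelAut σ S (Ideal.span {ϖ}) n)
    (D : TameDatum σ S A.aut n ϖ) :
    {x : LevelCosets S (Ideal.span {ϖ}) | A.act x = x} =
      (QuotientGroup.mk (s := levelGroup S (Ideal.span {ϖ}))) '' {g | glMap σ g = g} := by
  refine subset_antisymm ?_ ?_
  swap
  · rintro _ ⟨g, hg, rfl⟩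
    show A.act _ = _
    rw [LevelAut.act_mk, hg]
  intro X hX
  induction X using QuotientGroup.induction_on with
  | _ g =>
    obtain ⟨m, x, c, k, rfl⟩ := h.exists_borel g
    set P : Lˣ := Units.mk0 ((ϖ : L) ^ m) (zpow_ne_zero m h.ne_zero) with hP
    set s : Lˣ →* Lˣ := Units.map σ.toRingHom.toMonoidHom with hsdef
    set τk : (Matrix (Fin 2) (Fin 2) S)ˣ := Units.map (A.aut.toRingHom.mapMatrix :
        Matrix (Fin 2) (Fin 2) S →+* _).toMonoidHom k with hτk
    have hk : τk⁻¹ * k ∈ congrLevel (Ideal.span {ϖ}) := congr_iff_map_eq fun i j =>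
      Ideal.mem_span_singleton.mpr (by simpa [hτk] using D.residue_fixed _)
    rw [Set.mem_ofPred_eq, LevelAut.act_mk, eq_comm, QuotientGroup.eq, map_mul, map_mul,
      glMap_scalarUnit, A.glMap_coeUnit, ← hτk] at hX
    set M := (borelUnit P x)⁻¹ * glMap σ (borelUnit P x) with hM
    have hMmem : M ∈ levelGroup S (Ideal.span {ϖ}) := by
      have h2 := conj_mem_levelGroup k hX
      have h3 := mul_mem h2 (coeUnit_mem_levelGroup
        ((congrLevel_normal (Ideal.span {ϖ})).mem_comm hk))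
      have h4 := mul_mem (mul_mem (scalarUnit_mem_levelGroup S (Ideal.span {ϖ}) c) h3)
        (scalarUnit_mem_levelGroup S (Ideal.span {ϖ}) (s c)⁻¹)
      convert h4 using 1
      rw [hM, map_mul, map_inv, map_inv, ← hsdef, _root_.mul_inv_rev, _root_.mul_inv_rev]
      generalize coeUnit S k = K
      generalize coeUnit S τk = T
      generalize (borelUnit P x)⁻¹ = Q
      generalize glMap σ (borelUnit P x) = R
      set C := scalarUnit (ι := Fin 2) c
      set C' := scalarUnit (ι := Fin 2) (s c)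
      have hC' : ∀ z : (Matrix (Fin 2) (Fin 2) L)ˣ, C' * z = z * C' := fun z => scalarUnit_comm _ z
      simp only [mul_assoc, hC']
      group
    rw [hM, glMap_borelUnit, borelUnit_inv, borelUnit_mul] at hMmem
    obtain ⟨d, u, humem, hu⟩ := hMmem
    have hentry : ∀ i j, (borelUnit (P⁻¹ * s P) (((P⁻¹ : Lˣ) : L) * σ x +
          -(((P⁻¹ : Lˣ) : L) * x)) : Matrix (Fin 2) (Fin 2) L) i j =
        (d : L) * (((u : Matrix (Fin 2) (Fin 2) S) i j : S) : L) := by
      intro i j
      rw [hsdef, hu]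
      simp [scalarUnit, Matrix.scalar]
    have h00 := hentry 0 0
    have h01 := hentry 0 1
    have h11 := hentry 1 1
    simp [borelUnit, hsdef] at h00 h01 h11
    rw [mem_congrLevel] at humem
    obtain ⟨p, hp⟩ := Ideal.mem_span_singleton.mp (humem 0 0)
    obtain ⟨q, hq⟩ := Ideal.mem_span_singleton.mp (humem 1 1)
    rw [Matrix.one_apply_eq] at hp hq
    obtain ⟨e, he⟩ : IsUnit ((u : Matrix (Fin 2) (Fin 2) S) 1 1) :=
      h.isUnit_of_dvd_sub isUnit_one ⟨q, hq⟩
    have hee : ((e : S) : L) * (((e⁻¹ : Sˣ) : S) : L) = 1 := congrArg Subtype.val e.mul_inv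
    have heL : ((e : S) : L) = (((u : Matrix (Fin 2) (Fin 2) S) 1 1 : S) : L) :=
      congrArg Subtype.val he
    have hd : (d : L) = (((e⁻¹ : Sˣ) : S) : L) := by
      rw [← heL] at h11
      linear_combination (-(d : L)) * hee - (((e⁻¹ : Sˣ) : S) : L) * h11
    have hpL : (((u : Matrix (Fin 2) (Fin 2) S) 0 0 : S) : L) - 1 = (ϖ : L) * (p : L) :=
      congrArg Subtype.val hp
    have hqL : (((u : Matrix (Fin 2) (Fin 2) S) 1 1 : S) : L) - 1 = (ϖ : L) * (q : L) :=
      congrArg Subtype.val hq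
    have hP0 : (ϖ : L) ^ m ≠ 0 := zpow_ne_zero m h.ne_zero
    have hm : (n : ℤ) ∣ m := D.orbit m ⟨((e⁻¹ : Sˣ) : S) * (p - q), by
      push_cast
      have h1 : σ ((ϖ : L) ^ m) = (ϖ : L) ^ m *
          ((((e⁻¹ : Sˣ) : S) : L) * (((u : Matrix (Fin 2) (Fin 2) S) 0 0 : S) : L)) := by
        rw [← hd, ← h00, hP, Units.val_mk0, map_zpow₀, ← mul_assoc, mul_inv_cancel₀ hP0, one_mul]
      rw [← heL] at hqL
      linear_combination h1 + (ϖ : L) ^ m * (((e⁻¹ : Sˣ) : S) : L) * (hpL - hqL) +
        (ϖ : L) ^ m * hee⟩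
    obtain ⟨f, v, hf, hfv⟩ := TameDatum.exists_fixed_pow A h hm
    have hPf : P = f * Units.map S.subtype.toMonoidHom v := Units.ext hfv
    have hfi : σ ((f⁻¹ : Lˣ) : L) = ((f⁻¹ : Lˣ) : L) := by
      rw [Units.val_inv_eq_inv_val, map_inv₀, hf]
    obtain ⟨y, hy⟩ : ∃ y : S, (y : L) = ((f⁻¹ : Lˣ) : L) * (σ x - x) := by
      refine ⟨(v : S) * ((e⁻¹ : Sˣ) : S) * (u : Matrix (Fin 2) (Fin 2) S) 0 1, ?_⟩
      push_cast
      rw [← hd]
      have hfP : ((f⁻¹ : Lˣ) : L) = ((v : S) : L) * ((P⁻¹ : Lˣ) : L) := by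
        have h2 : f⁻¹ = Units.map S.subtype.toMonoidHom v * P⁻¹ := by
          rw [hPf, _root_.mul_inv_rev, mul_inv_cancel_left]
        exact congrArg Units.val h2
      rw [← Units.val_inv_eq_inv_val f, hfP, Units.val_inv_eq_inv_val]
      linear_combination (-((v : S) : L)) * h01
    have hσi : ∀ i : ℕ, ∃ y : S, (y : L) = ((f⁻¹ : Lˣ) : L) * ((σ ^ i) x - x) := by
      intro i
      induction i with
      | zero => exact ⟨0, by simp⟩
      | succ i ih =>
        obtain ⟨y', hy'⟩ := ih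
        refine ⟨A.aut y' + y, ?_⟩
        push_cast
        rw [A.coe_aut, hy', hy, map_mul, map_sub, hfi, pow_succ', RingAut.mul_apply,
          Units.val_inv_eq_inv_val]
        ring
    choose ys hys using hσi
    obtain ⟨wn, hwn⟩ := D.isUnit_n.exists_left_inv
    have hwfix : A.aut wn = wn := by
      have h' : A.aut wn * (n : S) = 1 := by simpa using congrArg A.aut hwn
      exact D.isUnit_n.mul_right_cancel (h'.trans hwn.symm)
    have hwnL : (wn : L) * (n : L) = 1 := by simpa using congrArg Subtype.val hwn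
    let x' := (wn : L) * autTrace σ n x
    have hx' : σ x' = x' := by
      rw [map_mul, apply_autTrace A.pow_eq, ← A.coe_aut, hwfix]
    let Y : S := wn * ∑ i ∈ range n, ys i
    have hY : (Y : L) = ((f⁻¹ : Lˣ) : L) * (x' - x) := by
      simp only [Y, x', autTrace, AddSubmonoidClass.coe_finsetSum, Subring.coe_mul, hys, ← mul_sum,
        sum_sub_distrib, sum_const, card_range, nsmul_eq_mul]
      linear_combination (-((f⁻¹ : Lˣ) : L)) * x * hwnL
    set k₁ := borelInt v (-Y) * k with hk₁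
    have hbor : borelUnit P x = borelUnit f x' * coeUnit S (borelInt v (-Y)) := by
      rw [coeUnit_borelInt, borelUnit_mul, ← hPf]
      congr 1
      rw [show ((-Y : S) : L) = -(Y : L) from rfl, hY, mul_neg, ← mul_assoc, Units.mul_inv, one_mul]
      ring
    choose y₀ hy₀ hy₀d using fun i j => D.exists_fixed A.aut_pow_eq
      ((k₁ : Matrix (Fin 2) (Fin 2) S) i j)
    have hdet : IsUnit (Matrix.of y₀).det := by
      refine h.isUnit_of_dvd_sub ((Matrix.isUnit_iff_isUnit_det _).mp k₁.isUnit) ?_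
      rw [← Ideal.mem_span_singleton, ← Ideal.Quotient.eq, RingHom.map_det, RingHom.map_det]
      congr 1
      ext i j
      simpa [Ideal.Quotient.eq, Ideal.mem_span_singleton] using hy₀d i j
    obtain ⟨k₀, hk₀⟩ := (Matrix.isUnit_iff_isUnit_det _).mpr hdet
    refine ⟨borelUnit f x' * coeUnit S k₀, ?_, ?_⟩
    · show glMap σ _ = _
      rw [map_mul, glMap_borelUnit, hx', show Units.map σ.toRingHom.toMonoidHom f = f from
        Units.ext hf, A.glMap_coeUnit]
      congr 2
      ext i j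
      simp [hk₀, hy₀]
    · have h1 : k₀⁻¹ * k₁ ∈ congrLevel (Ideal.span {ϖ}) := congr_iff_map_eq fun i j =>
        Ideal.mem_span_singleton.mpr (by simpa [hk₀] using hy₀d i j)
      refine QuotientGroup.eq.mpr ?_
      rw [show (borelUnit f x' * coeUnit S k₀)⁻¹ * (borelUnit P x * (scalarUnit c * coeUnit S k)) =
          scalarUnit c * coeUnit S (k₀⁻¹ * k₁) by
        rw [hbor, hk₁, map_mul, map_inv, map_mul, mul_assoc (borelUnit f x'),
          ← mul_assoc (coeUnit S (borelInt v (-Y))), ← scalarUnit_comm c, _root_.mul_inv_rev,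
          mul_assoc _ _ (borelUnit f x' * _), inv_mul_cancel_left,
          ← mul_assoc _ (scalarUnit c * _), ← mul_assoc _ (scalarUnit c), ← scalarUnit_comm c]
        simp only [mul_assoc]]
      exact ⟨c, _, h1, rfl⟩

/-- A rational element of the level group is a rational scalar times a rational element of the
congruence subgroup. -/
theorem levelGroup_tame_fixed (h : Uniformizer S ϖ) (_A : LevelAut σ S (Ideal.span {ϖ}) n)
    {g : (Matrix (Fin 2) (Fin 2) L)ˣ} (hg : g ∈ levelGroup S (Ideal.span {ϖ}))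
    (hfix : glMap σ g = g) :
    ∃ (c : Lˣ), ∃ u ∈ congrLevel (Ideal.span {ϖ}),
      σ (c : L) = c ∧ glMap σ (coeUnit S u) = coeUnit S u ∧ g = scalarUnit c * coeUnit S u := by
  obtain ⟨c, u, hu, rfl⟩ := hg
  have h00 := (mem_congrLevel.mp hu) 0 0
  rw [Matrix.one_apply_eq, Ideal.mem_span_singleton] at h00
  obtain ⟨e, he⟩ : IsUnit ((u : Matrix (Fin 2) (Fin 2) S) 0 0) :=
    h.isUnit_of_dvd_sub isUnit_one h00
  let u' := Units.map (Matrix.scalar (Fin 2)).toMonoidHom e⁻¹ * u
  let c' : Lˣ := c * Units.map S.subtype.toMonoidHom e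
  have heq : scalarUnit c * coeUnit S u = scalarUnit c' * coeUnit S u' := by
    rw [map_mul, map_mul, coeUnit_scalar, map_inv (Units.map S.subtype.toMonoidHom), map_inv,
      mul_assoc, mul_inv_cancel_left]
  have hu'00 : (coeUnit S u' : Matrix (Fin 2) (Fin 2) L) 0 0 = 1 := by
    rw [map_mul, coeUnit_scalar, Units.val_mul]
    simp only [scalarUnit, Units.coe_map, RingHom.toMonoidHom_eq_coe, MonoidHom.coe_coe,
      Matrix.scalar_apply, Matrix.diagonal_mul, coe_coeUnit, Matrix.map_apply, ← he]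
    exact congrArg Subtype.val e.inv_mul
  rw [heq, map_mul, glMap_scalarUnit] at hfix
  have hc : σ (c' : L) = c' := by
    have h1 := congrArg (fun M : (Matrix (Fin 2) (Fin 2) L)ˣ =>
      (M : Matrix (Fin 2) (Fin 2) L) 0 0) hfix
    simp only [Units.val_mul] at h1
    simp only [scalarUnit, Units.coe_map, RingHom.toMonoidHom_eq_coe, MonoidHom.coe_coe,
      Matrix.scalar_apply, Matrix.diagonal_mul, coe_glMap, Matrix.map_apply] at h1
    rwa [hu'00, map_one, mul_one, mul_one] at h1
  refine ⟨c', u', ?_, hc, ?_, heq⟩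
  · refine scalar_mul_mem_congrLevel hu ?_
    obtain ⟨z, hz⟩ := h00
    refine ⟨-(((e⁻¹ : Sˣ) : S) * z), ?_⟩
    rw [← he] at hz
    linear_combination (-((e⁻¹ : Sˣ) : S)) * hz + e.inv_mul
  · rw [show Units.map σ.toRingHom.toMonoidHom c' = c' from Units.ext hc] at hfix
    exact mul_left_cancel hfix

end Fermat.Agent.LT.Matching
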