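import Fermat.Agent.LT.Matching.Borel
import Fermat.Agent.LT.Matching.OrderNorm

/-!
# Local matching at unramified inert places

For an unramified extension `L/K` with Galois generator `σ`, the cosets of `PGL₂(L)/PGL₂(S)`
fixed by `σ` come from `PGL₂(K)`, and for every rational `γ` fixing some coset there is `δ₀` with
norm `γ` (up to rational scalars), commuting with the centraliser of `γ`, whose twisted fixed
cosets are exactly the rational cosets fixed by `γ`.
-/

set_option autoImplicit false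

namespace Fermat.Agent.LT.Matching

open Fermat.Agent.CubicDescent Matrix

variable {L : Type*} [Field L] {σ : L ≃+* L} {S : Subring L} {n : ℕ} {t : S}

theorem mem_congrLevel_top (u : (Matrix (Fin 2) (Fin 2) S)ˣ) : u ∈ congrLevel (⊤ : Ideal S) :=
  mem_congrLevel.mpr fun _ _ => Submodule.mem_top

/-- The scalar unit over `S` maps to the scalar unit over `L`. -/
theorem coeUnit_scalar (v : Sˣ) :
    coeUnit S (Units.map (Matrix.scalar (Fin 2)).toMonoidHom v) =
      scalarUnit (Units.map S.subtype.toMonoidHom v) := by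
  ext i j
  by_cases hij : i = j <;> simp [scalarUnit, Matrix.scalar, Matrix.diagonal, hij]

/-- The determinant of an integral matrix seen over `L`. -/
theorem det_coeUnit (u : (Matrix (Fin 2) (Fin 2) S)ˣ) :
    (coeUnit S u : Matrix (Fin 2) (Fin 2) L).det =
      (((u : Matrix (Fin 2) (Fin 2) S).det : S) : L) := by
  rw [coe_coeUnit]
  exact (RingHom.map_det S.subtype _).symm

/-- A fixed coset of an element with unit determinant gives an integral conjugate. -/
theorem exists_conj_of_fixed (h : Uniformizer S t) {γ g : (Matrix (Fin 2) (Fin 2) L)ˣ} {w : Sˣ}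
    (hw : (γ : Matrix (Fin 2) (Fin 2) L).det = ((w : S) : L))
    (hfix : γ • (g : LevelCosets S (⊤ : Ideal S)) = g) :
    ∃ u ∈ congrLevel (⊤ : Ideal S), γ * g = g * coeUnit S u := by
  obtain ⟨c, u, -, hu⟩ := (smul_mk_eq_iff γ g).mp hfix
  have hdet := congrArg (fun M : (Matrix (Fin 2) (Fin 2) L)ˣ =>
    (M : Matrix (Fin 2) (Fin 2) L).det) hu
  simp only [Units.val_mul, Matrix.det_mul, det_scalarUnit, det_coeUnit] at hdet
  have hgdet : ((g⁻¹ : (Matrix (Fin 2) (Fin 2) L)ˣ) : Matrix (Fin 2) (Fin 2) L).det *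
      (g : Matrix (Fin 2) (Fin 2) L).det = 1 := by
    rw [← Matrix.det_mul, Units.inv_mul, Matrix.det_one]
  rw [mul_right_comm, hgdet, one_mul, hw] at hdet
  set d := ((Matrix.isUnit_iff_isUnit_det _).mp u.isUnit).unit with hd
  have hdd : ((d : S) : L) = (((u : Matrix (Fin 2) (Fin 2) S).det : S) : L) := rfl
  obtain ⟨v, hv⟩ := h.exists_unit_of_sq (c := (c : L)) (w := w * d⁻¹) (by
    have hd1 : ((d : S) : L) * (((d⁻¹ : Sˣ) : S) : L) = 1 := congrArg Subtype.val d.mul_inv
    push_cast
    rw [← hdd] at hdet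
    linear_combination (-(((d⁻¹ : Sˣ) : S) : L)) * hdet - (c : L) ^ 2 * hd1)
  refine ⟨Units.map (Matrix.scalar (Fin 2)).toMonoidHom v * u, mem_congrLevel_top _, ?_⟩
  rw [map_mul, coeUnit_scalar, show Units.map S.subtype.toMonoidHom v = c from Units.ext hv, ← hu]
  group

variable {k : Type*} [Field k] [Finite k]

/-- **Local matching at an unramified inert place.** -/
theorem exists_matching_unramified [IsAdicComplete (Ideal.span {t}) S]
    (h : Uniformizer S t) (A : LevelAut σ S (⊤ : Ideal S) n)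
    (D : UnramifiedDatum A.aut n t k) {γ : (Matrix (Fin 2) (Fin 2) L)ˣ}
    (hγ : glMap σ γ = γ) (hne : ∃ x : LevelCosets S (⊤ : Ideal S), γ • x = x) :
    ∃ (δ₀ : (Matrix (Fin 2) (Fin 2) L)ˣ) (c : Lˣ),
      σ (c : L) = c ∧ twistedNorm (glMap σ) δ₀ n = scalarUnit c * γ ∧
        (∀ y : (Matrix (Fin 2) (Fin 2) L)ˣ, Commute y γ → Commute y δ₀) ∧
        {x | twistedMap δ₀ A.act x = x} = {x | A.act x = x ∧ γ • x = x} := by
  obtain ⟨x, hx⟩ := hne
  induction x using QuotientGroup.induction_on with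
  | _ g =>
    obtain ⟨c₁, u₁, -, hu₁⟩ := (smul_mk_eq_iff γ g).mp hx
    obtain ⟨m, w, hw⟩ := h.exists_eq (c₁ : L) c₁.ne_zero
    let c : Lˣ := Units.mk0 ((t : L) ^ (-m)) (zpow_ne_zero _ h.ne_zero)
    have hc : σ (c : L) = c := by
      show σ ((t : L) ^ (-m)) = (t : L) ^ (-m)
      rw [map_zpow₀, ← A.coe_aut, D.aut_t]
    have hc₁ : c * c₁ = Units.map S.subtype.toMonoidHom w := by
      ext
      show (t : L) ^ (-m) * (c₁ : L) = ((w : S) : L)
      rw [hw, zpow_neg, ← mul_assoc, inv_mul_cancel₀ (zpow_ne_zero m h.ne_zero), one_mul]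
    set γ' := scalarUnit c * γ with hγ'def
    have hγ' : glMap σ γ' = γ' := by
      rw [map_mul, glMap_scalarUnit, hγ, show Units.map σ.toRingHom.toMonoidHom c = c from
        Units.ext hc]
    set u := Units.map (Matrix.scalar (Fin 2)).toMonoidHom w * u₁ with hudef
    have hconj : γ' * g = g * coeUnit S u := by
      rw [map_mul, coeUnit_scalar, ← hc₁, map_mul, mul_assoc (scalarUnit c) (scalarUnit c₁), ← hu₁,
        ← mul_assoc g, ← scalarUnit_comm c g, hγ'def]
      group
    obtain ⟨a, b, ha, hb, hau, had, -, hsq⟩ := exists_quadratic_relation A hγ' hconj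
    obtain ⟨z, hz, hnorm⟩ := D.exists_norm ha hb (r := QuadraticAlgebra.omega)
      (QuadraticAlgebra.ext (map_zero _) (map_one _)) (isUnit_omega hau)
    have hdet : (γ' : Matrix (Fin 2) (Fin 2) L).det =
        ((((Matrix.isUnit_iff_isUnit_det _).mp u.isUnit).unit : S) : L) := by
      have h1 := congrArg (fun M : (Matrix (Fin 2) (Fin 2) L)ˣ =>
        (M : Matrix (Fin 2) (Fin 2) L).det) hconj
      simp only [Units.val_mul, Matrix.det_mul] at h1
      rw [mul_comm, det_coeUnit] at h1
      exact mul_left_cancel₀ ((Matrix.isUnit_iff_isUnit_det _).mp g.isUnit).ne_zero h1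
    obtain ⟨hN, hset⟩ := twistedFixed_eq_of_root A hγ' ha hb hsq hz hnorm (e := 1)
      Submodule.mem_top (fun g' hg' => exists_conj_of_fixed h hdet hg')
    refine ⟨orderUnit hsq hz, c, hc, hN, fun y hy => commute_orderUnit hsq hz
      ((scalarUnit_commute c y).symm.mul_right hy), ?_⟩
    rw [hset]
    ext x
    simp [hγ'def, mul_smul, scalarUnit_smul]

/-- Fixed cosets are rational. -/
theorem fixed_cosets_unramified [IsAdicComplete (Ideal.span {t}) S]
    (h : Uniformizer S t) (A : LevelAut σ S (⊤ : Ideal S) n)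
    (D : UnramifiedDatum A.aut n t k) :
    {x : LevelCosets S (⊤ : Ideal S) | A.act x = x} =
      (QuotientGroup.mk (s := levelGroup S (⊤ : Ideal S))) '' {g | glMap σ g = g} := by
  refine subset_antisymm ?_ ?_
  swap
  · rintro _ ⟨g, hg, rfl⟩
    show A.act _ = _
    rw [LevelAut.act_mk, hg]
  intro x hx
  induction x using QuotientGroup.induction_on with
  | _ g =>
    obtain ⟨m, x, c, v, rfl⟩ := h.exists_borel g
    set P : Lˣ := Units.mk0 ((t : L) ^ m) (zpow_ne_zero m h.ne_zero) with hP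
    have hmem : scalarUnit c * coeUnit S v ∈ levelGroup S (⊤ : Ideal S) :=
      ⟨c, v, mem_congrLevel_top v, rfl⟩
    rw [Set.mem_ofPred_eq, QuotientGroup.mk_mul_of_mem _ hmem] at hx
    rw [QuotientGroup.mk_mul_of_mem _ hmem]
    have hPfix : Units.map σ.toRingHom.toMonoidHom P = P := Units.ext (by
      show σ ((t : L) ^ m) = (t : L) ^ m
      rw [map_zpow₀, ← A.coe_aut, D.aut_t])
    rw [LevelAut.act_mk, glMap_borelUnit, hPfix, eq_comm, QuotientGroup.eq, borelUnit_inv,
      borelUnit_mul, inv_mul_cancel] at hx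
    obtain ⟨d, u, -, hu⟩ := hx
    have hentry : ∀ i j, (borelUnit 1 (((P⁻¹ : Lˣ) : L) * σ x + -(((P⁻¹ : Lˣ) : L) * x)) :
        Matrix (Fin 2) (Fin 2) L) i j = (d : L) * (((u : Matrix (Fin 2) (Fin 2) S) i j : S) : L) := by
      intro i j
      rw [hu]
      simp [scalarUnit, Matrix.scalar]
    have h01 := hentry 0 1
    have hdS : (d : L) ∈ S := by
      have hd2 : (d : L) ^ 2 * (((u : Matrix (Fin 2) (Fin 2) S).det : S) : L) = 1 := by
        have h00 := hentry 0 0
        have h10 := hentry 1 0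
        have h11 := hentry 1 1
        simp [borelUnit] at h00 h10 h11
        have h10' : (((u : Matrix (Fin 2) (Fin 2) S) 1 0 : S) : L) = 0 := by rw [h10]; rfl
        rw [Matrix.det_fin_two]
        push_cast
        linear_combination (-(d : L) * (((u : Matrix (Fin 2) (Fin 2) S) 1 1 : S) : L)) * h00 -
          h11 - (d : L) ^ 2 * (((u : Matrix (Fin 2) (Fin 2) S) 0 1 : S) : L) * h10'
      set e := ((Matrix.isUnit_iff_isUnit_det _).mp u.isUnit).unit with he
      obtain ⟨v', hv'⟩ := h.exists_unit_of_sq (c := (d : L)) (w := e⁻¹) (by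
        have he1 : ((e : S) : L) * (((e⁻¹ : Sˣ) : S) : L) = 1 := congrArg Subtype.val e.mul_inv
        rw [show (((u : Matrix (Fin 2) (Fin 2) S).det : S) : L) = ((e : S) : L) from rfl] at hd2
        linear_combination (((e⁻¹ : Sˣ) : S) : L) * hd2 - (d : L) ^ 2 * he1)
      exact hv' ▸ (v' : S).2
    obtain ⟨y, hy⟩ : ∃ y : S, (y : L) = ((P⁻¹ : Lˣ) : L) * (σ x - x) :=
      ⟨⟨(d : L), hdS⟩ * (u : Matrix (Fin 2) (Fin 2) S) 0 1, by
        simp [borelUnit] at h01
        push_cast
        linear_combination -h01⟩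
    have hσi : ∀ i : ℕ, ∃ y : S, (y : L) = ((P⁻¹ : Lˣ) : L) * ((σ ^ i) x - x) := by
      intro i
      induction i with
      | zero => exact ⟨0, by simp⟩
      | succ i ih =>
        obtain ⟨y', hy'⟩ := ih
        refine ⟨A.aut y' + y, ?_⟩
        have hPi : σ ((P⁻¹ : Lˣ) : L) = ((P⁻¹ : Lˣ) : L) := by
          rw [Units.val_inv_eq_inv_val, map_inv₀]
          exact congrArg (fun z => z⁻¹) (congrArg Units.val hPfix)
        push_cast
        rw [A.coe_aut, hy', hy, map_mul, map_sub, hPi, pow_succ', RingAut.mul_apply,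
          Units.val_inv_eq_inv_val]
        ring
    choose ys hys using hσi
    obtain ⟨s, hs⟩ := D.exists_trace_one
    have hsum : ∑ i ∈ Finset.range n, (((A.aut ^ i) s : S) : L) = 1 := by
      simpa [autTrace] using congrArg Subtype.val hs
    let x' := ∑ i ∈ Finset.range n, (((A.aut ^ i) s : S) : L) * (σ ^ i) x
    have hx' : σ x' = x' := by
      simp only [x', A.aut_pow_coe, ← map_mul]
      exact apply_autTrace A.pow_eq _
    let Y : S := ∑ i ∈ Finset.range n, (A.aut ^ i) s * ys i
    have hY : (Y : L) = ((P⁻¹ : Lˣ) : L) * (x' - x) := by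
      simp only [Y, x', AddSubmonoidClass.coe_finsetSum, Subring.coe_mul, hys]
      have hxx : x = ∑ i ∈ Finset.range n, (((A.aut ^ i) s : S) : L) * x := by
        rw [← Finset.sum_mul, hsum, one_mul]
      have hd' : ∑ i ∈ Finset.range n, (((A.aut ^ i) s : S) : L) * (σ ^ i) x - x =
          ∑ i ∈ Finset.range n, (((A.aut ^ i) s : S) : L) * ((σ ^ i) x - x) := by
        simp only [mul_sub, Finset.sum_sub_distrib, ← hxx]
      rw [hd', Finset.mul_sum]
      exact Finset.sum_congr rfl fun i _ => by ring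
    refine ⟨borelUnit P x', ?_, ?_⟩
    · show glMap σ _ = _
      rw [glMap_borelUnit, hPfix, hx']
    · have h2 : borelUnit P x' = borelUnit P x * coeUnit S (borelInt 1 Y) := by
        rw [coeUnit_borelInt, borelUnit_mul]
        congr 1
        · simp
        · rw [hY, ← mul_assoc, Units.mul_inv, one_mul]; ring
      rw [h2, QuotientGroup.mk_mul_of_mem _ (coeUnit_mem_levelGroup (mem_congrLevel_top _))]

/-- A rational element of the level group is a rational scalar times a rational integral one. -/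
theorem levelGroup_top_fixed (h : Uniformizer S t) (A : LevelAut σ S (⊤ : Ideal S) n)
    (ht : A.aut t = t) {g : (Matrix (Fin 2) (Fin 2) L)ˣ} (hg : g ∈ levelGroup S (⊤ : Ideal S))
    (hfix : glMap σ g = g) :
    ∃ (c : Lˣ) (u : (Matrix (Fin 2) (Fin 2) S)ˣ),
      σ (c : L) = c ∧ glMap σ (coeUnit S u) = coeUnit S u ∧ g = scalarUnit c * coeUnit S u := by
  obtain ⟨c, u, -, rfl⟩ := hg
  obtain ⟨m, w, hw⟩ := h.exists_eq (c : L) c.ne_zero
  let P : Lˣ := Units.mk0 ((t : L) ^ m) (zpow_ne_zero m h.ne_zero)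
  have hP : σ (P : L) = P := by
    show σ ((t : L) ^ m) = (t : L) ^ m
    rw [map_zpow₀, ← A.coe_aut, ht]
  have hcP : c = P * Units.map S.subtype.toMonoidHom w := Units.ext hw
  refine ⟨P, Units.map (Matrix.scalar (Fin 2)).toMonoidHom w * u, hP, ?_, ?_⟩
  · rw [map_mul, glMap_scalarUnit] at hfix
    refine mul_left_cancel (a := scalarUnit P) ?_
    conv_rhs => rw [map_mul (coeUnit S), coeUnit_scalar, ← mul_assoc, ← map_mul, ← hcP, ← hfix, hcP]
    rw [map_mul (coeUnit S), coeUnit_scalar, map_mul (Units.map _), map_mul scalarUnit,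
      show Units.map σ.toRingHom.toMonoidHom P = P from Units.ext hP, map_mul, glMap_scalarUnit,
      mul_assoc]
  · rw [map_mul, coeUnit_scalar, ← mul_assoc, ← map_mul, ← hcP]

end Fermat.Agent.LT.Matching
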